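/-
Program C (S55), package C7 (second inequality, Kummer case) — model-independent interface.

An "idele system" for a global multiplicative group `G` (`= kˣ`):
places `V`, local groups `X v` (`= k_vˣ`), local unit groups `U v ≤ X v`
(`= ⊤` at archimedean places) and localisation maps `loc v : G →* X v`.
Everything lives in the full product `∀ v, X v`; the ideles are the restricted product
`resProd U`.
-/
import Mathlib

namespace Fermat.Agent.S55.H8

open Subgroup

variable {G : Type*} [CommGroup G] {V : Type*} {X : V → Type*} [∀ v, CommGroup (X v)]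

/-- The subgroup of `p`-th powers of a commutative group. -/
def pPow (p : ℕ) (H : Type*) [CommGroup H] : Subgroup H := (powMonoidHom p : H →* H).range

theorem mem_pPow {p : ℕ} {H : Type*} [CommGroup H] {x : H} :
    x ∈ pPow p H ↔ ∃ y : H, y ^ p = x := Iff.rfl

theorem pow_mem_pPow (p : ℕ) {H : Type*} [CommGroup H] (y : H) : y ^ p ∈ pPow p H := ⟨y, rfl⟩

/-- The diagonal map `G → ∏ X v`. -/
def diag (loc : ∀ v, G →* X v) : G →* (∀ v, X v) := MonoidHom.pi loc

@[simp] theorem diag_apply (loc : ∀ v, G →* X v) (g : G) (v : V) : diag loc g v = loc v g := rfl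

/-- The principal ideles. -/
def principal (loc : ∀ v, G →* X v) : Subgroup (∀ v, X v) := (diag loc).range

/-- The restricted product (ideles). -/
def resProd (U : ∀ v, Subgroup (X v)) : Subgroup (∀ v, X v) where
  carrier := {x | {v | x v ∉ U v}.Finite}
  one_mem' := by simp
  mul_mem' := by
    intro x y hx hy
    refine (hx.union hy).subset ?_
    intro v hv
    by_contra h
    simp only [Set.mem_union, Set.mem_ofPred_eq, not_or, not_not] at h
    exact hv ((U v).mul_mem h.1 h.2)
  inv_mem' := by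
    intro x hx
    refine hx.subset ?_
    intro v hv h
    exact hv ((U v).inv_mem h)

theorem mem_resProd {U : ∀ v, Subgroup (X v)} {x : ∀ v, X v} :
    x ∈ resProd U ↔ {v | x v ∉ U v}.Finite := Iff.rfl

/-- The `S`-ideles: units outside `S`. -/
def JS (U : ∀ v, Subgroup (X v)) (S : Set V) : Subgroup (∀ v, X v) := Subgroup.pi Sᶜ U

theorem mem_JS {U : ∀ v, Subgroup (X v)} {S : Set V} {x : ∀ v, X v} :
    x ∈ JS U S ↔ ∀ v, v ∉ S → x v ∈ U v := by
  simp [JS, Subgroup.mem_pi]

theorem JS_le_resProd (U : ∀ v, Subgroup (X v)) {S : Set V} (hS : S.Finite) :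
    JS U S ≤ resProd U := by
  intro x hx
  refine hS.subset ?_
  intro v hv
  by_contra h
  exact hv (mem_JS.1 hx v h)

theorem JS_mono (U : ∀ v, Subgroup (X v)) {S S' : Set V} (h : S ⊆ S') : JS U S ≤ JS U S' := by
  intro x hx
  rw [mem_JS] at hx ⊢
  exact fun v hv => hx v (fun h' => hv (h h'))

/-- The `S`-units of `G`. -/
def GS (U : ∀ v, Subgroup (X v)) (loc : ∀ v, G →* X v) (S : Set V) : Subgroup G :=
  (JS U S).comap (diag loc)

theorem mem_GS {U : ∀ v, Subgroup (X v)} {loc : ∀ v, G →* X v} {S : Set V} {g : G} :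
    g ∈ GS U loc S ↔ ∀ v, v ∉ S → loc v g ∈ U v := by
  simp [GS, mem_JS]

/-- The ideles that are local norms everywhere, for a family `Nl v ≤ X v` of local norm groups. -/
def NmLoc (U : ∀ v, Subgroup (X v)) (Nl : ∀ v, Subgroup (X v)) : Subgroup (∀ v, X v) :=
  resProd U ⊓ Subgroup.pi Set.univ Nl

theorem mem_NmLoc {U : ∀ v, Subgroup (X v)} {Nl : ∀ v, Subgroup (X v)} {x : ∀ v, X v} :
    x ∈ NmLoc U Nl ↔ x ∈ resProd U ∧ ∀ v, x v ∈ Nl v := by
  simp [NmLoc, Subgroup.mem_pi]

/-- **Interface of C7.**  The hypotheses on an idele system under which the abstract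
Kummer-theoretic second inequality holds.  In the intended model: `G = kˣ` for a number field
`k ⊇ μ_p`, `p` odd; `Sbase` = archimedean places, places above `p`, and finitely many places
generating the class group; `Nloc g v` = the norm group of `k_v(g^{1/p}) / k_v`. -/
structure KummerHyp (p : ℕ) (U : ∀ v, Subgroup (X v)) (loc : ∀ v, G →* X v)
    (Sbase : Finset V) (Nloc : G → ∀ v, Subgroup (X v)) : Prop where
  /-- `kˣ → J_k` is injective. -/
  diag_inj : Function.Injective (diag loc)
  /-- a global element is a unit at almost all places. -/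
  finite_nonunit : ∀ g : G, {v | loc v g ∉ U v}.Finite
  /-- finiteness of the class group: `J = kˣ · J_S` for `S ⊇ Sbase`. -/
  classNumber : ∀ S : Finset V, Sbase ⊆ S →
    resProd U ≤ principal loc ⊔ JS U (S : Set V)
  /-- `S`-unit theorem (with `μ_p ⊆ k`): `(k_S : k_S^p) = p^{|S|}`. -/
  sUnit : ∀ S : Finset V, Sbase ⊆ S →
    ((GS U loc (S : Set V)).map (powMonoidHom p)).relIndex (GS U loc (S : Set V)) = p ^ S.card
  /-- `(U_v : U_v^p) = p` for `v ∉ Sbase`. -/
  unit_index : ∀ v, v ∉ Sbase → ((U v).map (powMonoidHom p)).relIndex (U v) = p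
  /-- `X_v / U_v` has no `p`-torsion for `v ∉ Sbase`. -/
  unit_of_pow : ∀ v, v ∉ Sbase → ∀ x : X v, x ^ p ∈ U v → x ∈ U v
  /-- `∏_{v ∈ S} (k_vˣ : k_vˣ^p) = p^{2|S|}` for `S ⊇ Sbase`. -/
  local_index : ∀ S : Finset V, Sbase ⊆ S →
    ∏ v ∈ S, (pPow p (X v)).index = p ^ (2 * S.card)
  /-- `p`-th powers are local norms. -/
  pow_le_norm : ∀ (g : G) (v : V), pPow p (X v) ≤ Nloc g v
  /-- if `g` is a local `p`-th power, every local element is a norm. -/
  norm_top_of_pow : ∀ (g : G) (v : V), loc v g ∈ pPow p (X v) → Nloc g v = ⊤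
  /-- `g` itself is a local norm from `k_v(g^{1/p})` (`p` odd: `N(g^{1/p}) = g`). -/
  self_mem_norm : ∀ (g : G) (v : V), loc v g ∈ Nloc g v
  /-- first inequality for `k(g^{1/p}) / k`. -/
  firstIneq : ∀ g : G, g ∉ pPow p G →
    ¬ (resProd U ≤ principal loc ⊔ NmLoc U (Nloc g))
  /-- existence of auxiliary places. -/
  exists_aux : ∀ (a y : G) (S' : Finset V), y ∉ Subgroup.zpowers a ⊔ pPow p G →
    ∃ v, v ∉ S' ∧ loc v a ∈ pPow p (X v) ∧ loc v y ∉ pPow p (X v)

end Fermat.Agent.S55.H8
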