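/-
Program C (S55), package C7 (second inequality, Kummer case) — abstract index core.

For a commutative group `A`, subgroups `P` ("principal ideles"),
`W` ("`S ∪ T`-ideles") and `E ≤ W`:

  `(W : E) = (P·W : P·E) * (W ∩ P : E ∩ P)`.

Consequently, if `(W : E) = p ^ (2 s)` and `(W ∩ P : E ∩ P) = p ^ (2 s - 1)` then
`(P·W : P·E) = p`, and `(P·W : P·Nm) ∣ p` for every `Nm ≥ E`.
-/
import Mathlib

namespace Fermat.Agent.S55.H8

open Subgroup

variable {J : Type*} [CommGroup J]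

/-- Modular law in the form used below. -/
theorem inf_sup_eq_of_le (P W E : Subgroup J) (hE : E ≤ W) :
    W ⊓ (P ⊔ E) = (W ⊓ P) ⊔ E := by
  apply le_antisymm
  · intro x hx
    obtain ⟨hxW, hxPE⟩ := hx
    obtain ⟨a, ha, b, hb, rfl⟩ := Subgroup.mem_sup.1 hxPE
    have haW : a ∈ W := by
      have : a = a * b * b⁻¹ := by group
      rw [this]
      exact W.mul_mem hxW (W.inv_mem (hE hb))
    exact Subgroup.mem_sup.2 ⟨a, ⟨haW, ha⟩, b, hb, rfl⟩
  · exact sup_le (le_inf inf_le_left (inf_le_right.trans le_sup_left))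
      (le_inf hE le_sup_right)

/-- The index identity `(W : E) = (P·W : P·E) * (W ∩ P : E ∩ P)` for `E ≤ W`. -/
theorem relIndex_eq_relIndex_mul_relIndex (P W E : Subgroup J) (hE : E ≤ W) :
    E.relIndex W = (P ⊔ E).relIndex (P ⊔ W) * (E ⊓ P).relIndex (W ⊓ P) := by
  -- middle group `M = (W ⊓ P) ⊔ E = W ⊓ (P ⊔ E)`
  have hM : W ⊓ (P ⊔ E) = (W ⊓ P) ⊔ E := inf_sup_eq_of_le P W E hE
  have h1 : E.relIndex ((W ⊓ P) ⊔ E) = (E ⊓ P).relIndex (W ⊓ P) := by
    rw [relIndex_sup_right]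
    have : E ⊓ P ⊓ (W ⊓ P) = E ⊓ (W ⊓ P) := by
      apply le_antisymm
      · exact le_inf (inf_le_left.trans inf_le_left) inf_le_right
      · exact le_inf (le_inf inf_le_left (inf_le_right.trans inf_le_right)) inf_le_right
    rw [← inf_relIndex_right E (W ⊓ P), ← this, inf_relIndex_right]
  have h2 : ((W ⊓ P) ⊔ E).relIndex W = (P ⊔ E).relIndex (P ⊔ W) := by
    rw [← hM, inf_comm, inf_relIndex_right, ← relIndex_sup_left (K := P ⊔ E) (H := W)]
    have : P ⊔ E ⊔ W = P ⊔ W := by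
      rw [sup_assoc, sup_eq_right.2 hE]
    rw [this]
  have h3 := relIndex_mul_relIndex (H := E) (K := (W ⊓ P) ⊔ E) (L := W) le_sup_right
    (by rw [← hM]; exact inf_le_left)
  rw [← h3, h1, h2, mul_comm]

/-- The arithmetic of the Kummer count: `p^(2s) = i * p^(2s-1)` forces `i = p`. -/
theorem eq_of_pow_eq_mul_pow {p s i : ℕ} (hp : 0 < p) (hs : 0 < s)
    (h : p ^ (2 * s) = i * p ^ (2 * s - 1)) : i = p := by
  have h2 : 2 * s = (2 * s - 1) + 1 := by omega
  have h3 : p ^ (2 * s) = p * p ^ (2 * s - 1) := by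
    conv_lhs => rw [h2, pow_succ]
    ring
  rw [h3] at h
  exact (Nat.eq_of_mul_eq_mul_right (pow_pos hp _) h).symm

/-- **Abstract index core of the second inequality.**  If `E ≤ W`,
`(W : E) = p^(2s)` and `(W ⊓ P : E ⊓ P) = p^(2s-1)`, then `(P ⊔ W : P ⊔ E) = p`. -/
theorem relIndex_sup_eq_of_counts (P W E : Subgroup J) (hE : E ≤ W)
    {p s : ℕ} (hp : 0 < p) (hs : 0 < s)
    (hWE : E.relIndex W = p ^ (2 * s))
    (hunits : (E ⊓ P).relIndex (W ⊓ P) = p ^ (2 * s - 1)) :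
    (P ⊔ E).relIndex (P ⊔ W) = p := by
  have h := relIndex_eq_relIndex_mul_relIndex P W E hE
  rw [hWE, hunits] at h
  exact eq_of_pow_eq_mul_pow hp hs h

/-- **Second inequality, abstract form.**  In the situation of `relIndex_sup_eq_of_counts`,
every subgroup `Nm ≥ E` (the norm group) satisfies `(P ⊔ W : P ⊔ Nm) ∣ p`. -/
theorem relIndex_sup_dvd_of_counts (P W E Nm : Subgroup J) (hE : E ≤ W)
    (hENm : E ≤ Nm) {p s : ℕ} (hp : 0 < p) (hs : 0 < s)
    (hWE : E.relIndex W = p ^ (2 * s))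
    (hunits : (E ⊓ P).relIndex (W ⊓ P) = p ^ (2 * s - 1)) :
    (P ⊔ Nm).relIndex (P ⊔ W) ∣ p := by
  have h := relIndex_sup_eq_of_counts P W E hE hp hs hWE hunits
  rw [← h]
  exact relIndex_dvd_of_le_left _ (sup_le_sup_left hENm P)

end Fermat.Agent.S55.H8
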