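/-
Program C (S55), package C7 — abstract core, part A: group-theoretic lemmas.
-/
import Fermat.Agent.S55.H8.IndexCore
import Fermat.Agent.S55.H8.KummerDefs

namespace Fermat.Agent.S55.H8

open Subgroup

section general

variable {H : Type*} [CommGroup H]

/-- right monotonicity of the relative index in a commutative group. -/
theorem relIndex_dvd_relIndex_of_le {A M B : Subgroup H} (hMB : M ≤ B) :
    A.relIndex M ∣ A.relIndex B := by
  have h1 : (A.subgroupOf B).relIndex (M.subgroupOf B) = A.relIndex M :=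
    relIndex_subgroupOf hMB
  rw [← h1]
  exact relIndex_dvd_index_of_normal _ _

/-- if `a ^ p ∈ A`, `a ∉ A` (`p` prime) then `(⟨a⟩ : A ∩ ⟨a⟩) = p`. -/
theorem relIndex_zpowers_of_pow_mem {p : ℕ} (hp : p.Prime) {A : Subgroup H} {a : H}
    (hap : a ^ p ∈ A) (ha : a ∉ A) : A.relIndex (zpowers a) = p := by
  have : Fact p.Prime := ⟨hp⟩
  have h1 : A.relIndex (zpowers a) = Nat.card ((zpowers a).map (QuotientGroup.mk' A)) := by
    conv_lhs => rw [← QuotientGroup.ker_mk' A]
    exact relIndex_ker _ _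
  rw [h1, MonoidHom.map_zpowers, Nat.card_zpowers]
  apply orderOf_eq_prime
  · rw [← map_pow]
    exact (QuotientGroup.eq_one_iff _).2 hap
  · intro h
    exact ha ((QuotientGroup.eq_one_iff _).1 h)

/-- a subgroup of prime index is maximal: `B = ⟨g⟩·A` for any `g ∈ B \ A`. -/
theorem le_zpowers_sup_of_relIndex_prime {p : ℕ} (hp : p.Prime) {A B : Subgroup H}
    (hAB : A ≤ B) (h : A.relIndex B = p) {g : H} (hg : g ∈ B) (hgA : g ∉ A) :
    B ≤ zpowers g ⊔ A := by
  have hM : zpowers g ⊔ A ≤ B := sup_le ((zpowers_le).2 hg) hAB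
  have h1 := relIndex_mul_relIndex (H := A) (K := zpowers g ⊔ A) (L := B) le_sup_right hM
  rw [h] at h1
  have h2 : A.relIndex (zpowers g ⊔ A) ≠ 1 := by
    intro h3
    have := relIndex_eq_one.1 h3
    exact hgA (this (le_sup_left (a := zpowers g) (mem_zpowers g)))
  have h3 : A.relIndex (zpowers g ⊔ A) = p := by
    rcases (Nat.dvd_prime hp).1 (Dvd.intro _ h1) with h4 | h4
    · exact absurd h4 h2
    · exact h4
  rw [h3] at h1
  have h4 : (zpowers g ⊔ A).relIndex B = 1 := by
    have : p * (zpowers g ⊔ A).relIndex B = p * 1 := by rw [h1, mul_one]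
    exact Nat.eq_of_mul_eq_mul_left hp.pos this
  exact relIndex_eq_one.1 h4

end general

end Fermat.Agent.S55.H8
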