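/-
Program C (S55), package C7 — abstract core, part B: local consequences of `KummerHyp`
and the construction of the auxiliary set `T`.
-/
import Fermat.Agent.S55.H8.KummerCoreA

namespace Fermat.Agent.S55.H8

open Subgroup

variable {G : Type*} [CommGroup G] {V : Type*} {X : V → Type*} [∀ v, CommGroup (X v)]
variable {p : ℕ} {U : ∀ v, Subgroup (X v)} {loc : ∀ v, G →* X v} {Sbase : Finset V}
  {Nloc : G → ∀ v, Subgroup (X v)}

/-- `U_v^p ≤ X_v^p`. -/
theorem map_pow_le_pPow (p : ℕ) {H : Type*} [CommGroup H] (A : Subgroup H) :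
    A.map (powMonoidHom p) ≤ pPow p H := by
  rintro x ⟨y, -, rfl⟩
  exact ⟨y, rfl⟩

theorem map_pow_le (p : ℕ) {H : Type*} [CommGroup H] (A : Subgroup H) :
    A.map (powMonoidHom p) ≤ A := by
  rintro x ⟨y, hy, rfl⟩
  exact A.pow_mem hy p

namespace KummerHyp

variable (h : KummerHyp p U loc Sbase Nloc)
include h

/-- `X_v^p ∩ U_v = U_v^p` outside `Sbase`. -/
theorem mem_map_pow {v : V} (hv : v ∉ Sbase) {x : X v} (hx : x ∈ pPow p (X v))
    (hxU : x ∈ U v) : x ∈ (U v).map (powMonoidHom p) := by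
  obtain ⟨y, rfl⟩ := hx
  exact ⟨y, h.unit_of_pow v hv y hxU, rfl⟩

/-- units are local norms outside `Sbase` when `g` is a local unit. -/
theorem unit_le_norm (hp : p.Prime) (g : G) {v : V} (hv : v ∉ Sbase) (hg : loc v g ∈ U v) :
    U v ≤ Nloc g v := by
  by_cases hgp : loc v g ∈ pPow p (X v)
  · rw [h.norm_top_of_pow g v hgp]
    exact le_top
  · have hgU : loc v g ∉ (U v).map (powMonoidHom p) := fun h' => hgp (map_pow_le_pPow p _ h')
    have h1 := le_zpowers_sup_of_relIndex_prime hp (map_pow_le p (U v)) (h.unit_index v hv) hg hgU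
    refine h1.trans (sup_le ?_ ?_)
    · exact (zpowers_le).2 (h.self_mem_norm g v)
    · exact (map_pow_le_pPow p _).trans (h.pow_le_norm g v)

/-- principal ideles are ideles. -/
theorem principal_le_resProd : principal loc ≤ resProd U := by
  rintro x ⟨g, rfl⟩
  exact h.finite_nonunit g

end KummerHyp

/-- the subgroup of elements of `G` which are local `p`-th powers at `v`. -/
def Kq (p : ℕ) (loc : ∀ v, G →* X v) (v : V) : Subgroup G := (pPow p (X v)).comap (loc v)

theorem mem_Kq {v : V} {g : G} : g ∈ Kq p loc v ↔ loc v g ∈ pPow p (X v) := Iff.rfl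

/-- the subgroup of elements of `B` which are local `p`-th powers at all places of `T`. -/
def KT (p : ℕ) (loc : ∀ v, G →* X v) (B : Subgroup G) (T : Set V) : Subgroup G :=
  B ⊓ (Subgroup.pi T (fun v => pPow p (X v))).comap (diag loc)

theorem mem_KT {B : Subgroup G} {T : Set V} {g : G} :
    g ∈ KT p loc B T ↔ g ∈ B ∧ ∀ q ∈ T, loc q g ∈ pPow p (X q) := by
  simp [KT, Subgroup.mem_pi]

theorem KT_le {B : Subgroup G} {T : Set V} : KT p loc B T ≤ B := inf_le_left

theorem KT_insert {B : Subgroup G} {T : Set V} (q : V) :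
    KT p loc B (insert q T) = KT p loc B T ⊓ Kq p loc q := by
  ext g
  simp only [mem_KT, Subgroup.mem_inf, mem_Kq, Set.mem_insert_iff, forall_eq_or_imp]
  tauto

theorem KT_empty {B : Subgroup G} : KT p loc B (∅ : Set V) = B := by
  ext g
  simp [mem_KT]

namespace KummerHyp

variable (h : KummerHyp p U loc Sbase Nloc)
include h

/-- the index step: `(K : K ∩ Kq v) ∣ p` if `K` consists of local units at `v ∉ Sbase`. -/
theorem relIndex_Kq_dvd {v : V} (hv : v ∉ Sbase) {K : Subgroup G}
    (hK : ∀ g ∈ K, loc v g ∈ U v) : (Kq p loc v).relIndex K ∣ p := by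
  have hM : K.map (loc v) ≤ U v := by
    rintro x ⟨g, hg, rfl⟩
    exact hK g hg
  have h1 : (Kq p loc v).relIndex K = (pPow p (X v)).relIndex (K.map (loc v)) :=
    relIndex_comap _ _ _
  have h2 : (pPow p (X v)).relIndex (K.map (loc v))
      = ((U v).map (powMonoidHom p)).relIndex (K.map (loc v)) := by
    rw [← inf_relIndex_right (pPow p (X v)), ← inf_relIndex_right ((U v).map (powMonoidHom p))]
    congr 1
    apply le_antisymm
    · intro x hx
      exact ⟨h.mem_map_pow hv hx.1 (hM hx.2), hx.2⟩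
    · intro x hx
      exact ⟨map_pow_le_pPow p _ hx.1, hx.2⟩
  rw [h1, h2]
  have h3 : ((U v).map (powMonoidHom p)).relIndex (K.map (loc v))
      ∣ ((U v).map (powMonoidHom p)).relIndex (U v) := relIndex_dvd_relIndex_of_le hM
  rwa [h.unit_index v hv] at h3

end KummerHyp

end Fermat.Agent.S55.H8
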