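/-
Program C (S55), package C7 — abstract core, part C: construction of the auxiliary set `T`
(`s - 1` places outside `S` at which `a` is a local `p`-th power and such that the `S`-units
surject onto `∏_{q ∈ T} U_q / U_q^p`).
-/
import Fermat.Agent.S55.H8.KummerCoreB

namespace Fermat.Agent.S55.H8

open Subgroup

variable {G : Type*} [CommGroup G] {V : Type*} {X : V → Type*} [∀ v, CommGroup (X v)]
variable {p : ℕ} {U : ∀ v, Subgroup (X v)} {loc : ∀ v, G →* X v} {Sbase : Finset V}
  {Nloc : G → ∀ v, Subgroup (X v)}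

/-- surjectivity of `B → ∏_{q ∈ T} U_q / U_q^p`, stated without quotients. -/
def SurjT (p : ℕ) (U : ∀ v, Subgroup (X v)) (loc : ∀ v, G →* X v) (B : Subgroup G)
    (T : Set V) : Prop :=
  ∀ u : ∀ v, X v, (∀ q ∈ T, u q ∈ U q) →
    ∃ b ∈ B, ∀ q ∈ T, u q / loc q b ∈ (U q).map (powMonoidHom p)

namespace KummerHyp

variable (h : KummerHyp p U loc Sbase Nloc)
include h

/-- the inductive construction of `T`. -/
theorem exists_T_aux (hp : p.Prime) (a : G) (ha : a ∉ pPow p G)
    (S : Finset V) (hS : Sbase ⊆ S) (haS : ∀ v, v ∉ S → loc v a ∈ U v) (s : ℕ)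
    (hs : S.card = s + 1) (j : ℕ) (hj : j ≤ s) :
    ∃ T : Finset V, (∀ q ∈ T, q ∉ S) ∧ T.card = j ∧ (∀ q ∈ T, loc q a ∈ pPow p (X q)) ∧
      (KT p loc (GS U loc (S : Set V)) (T : Set V)).relIndex (GS U loc (S : Set V)) = p ^ j ∧
      SurjT p U loc (GS U loc (S : Set V)) (T : Set V) := by
  classical
  set B := GS U loc (S : Set V) with hB
  set Bp := B.map (powMonoidHom p) with hBp
  set A₀ := zpowers a ⊔ Bp with hA₀
  have haB : a ∈ B := mem_GS.2 (fun v hv => haS v (by simpa using hv))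
  have haBp : a ∉ Bp := fun h' => ha (map_pow_le_pPow p _ h')
  have hBpB : Bp ≤ B := map_pow_le p B
  have hA₀B : A₀ ≤ B := sup_le ((zpowers_le).2 haB) hBpB
  have hidx : Bp.relIndex B = p ^ S.card := h.sUnit S hS
  have h1 : Bp.relIndex A₀ = p := by
    rw [hA₀, relIndex_sup_right]
    exact relIndex_zpowers_of_pow_mem hp ⟨a, haB, rfl⟩ haBp
  have h2 : p * A₀.relIndex B = p ^ S.card := by
    rw [← hidx, ← relIndex_mul_relIndex (H := Bp) (K := A₀) (L := B) le_sup_right hA₀B, h1]
  have h3 : A₀.relIndex B = p ^ s := by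
    rw [hs, pow_succ] at h2
    have h2' : p * A₀.relIndex B = p * p ^ s := by rw [h2, mul_comm]
    exact Nat.eq_of_mul_eq_mul_left hp.pos h2'
  induction j with
  | zero =>
    refine ⟨∅, by simp, rfl, by simp, ?_, ?_⟩
    · rw [Finset.coe_empty, KT_empty, relIndex_self, pow_zero]
    · intro u _
      exact ⟨1, B.one_mem, by simp⟩
  | succ j ih =>
    obtain ⟨T, hTS, hTc, hTa, hTi, hTsurj⟩ := ih (by omega)
    have hA₀K : A₀ ≤ KT p loc B (T : Set V) := by
      refine sup_le ((zpowers_le).2 (mem_KT.2 ⟨haB, fun q hq => hTa q (by simpa using hq)⟩)) ?_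
      rintro x ⟨y, hy, rfl⟩
      refine mem_KT.2 ⟨B.pow_mem hy p, fun q _ => ?_⟩
      exact ⟨loc q y, by simp⟩
    have h4 := relIndex_mul_relIndex (H := A₀) (K := KT p loc B (T : Set V)) (L := B) hA₀K KT_le
    rw [hTi, h3] at h4
    have hne : ¬ KT p loc B (T : Set V) ≤ A₀ := by
      intro hle
      rw [relIndex_eq_one.2 hle, one_mul] at h4
      have := Nat.pow_right_injective hp.two_le h4
      omega
    obtain ⟨y, hyK, hyA⟩ := SetLike.not_le_iff_exists.1 hne
    have hyB : y ∈ B := KT_le hyK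
    have hy' : y ∉ zpowers a ⊔ pPow p G := by
      intro hy
      obtain ⟨y₁, hy₁, z₁, hz₁, rfl⟩ := mem_sup.1 hy
      obtain ⟨w, rfl⟩ := hz₁
      apply hyA
      refine mem_sup.2 ⟨y₁, hy₁, _, ?_, rfl⟩
      have hy₁B : y₁ ∈ B := (zpowers_le).2 haB hy₁
      have hzB : (powMonoidHom p) w ∈ B := by
        have := B.mul_mem (B.inv_mem hy₁B) hyB
        simpa using this
      refine ⟨w, mem_GS.2 (fun v hv => h.unit_of_pow v (fun hvb => hv (hS hvb)) _ ?_), rfl⟩
      have := mem_GS.1 hzB v hv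
      simpa [map_pow] using this
    obtain ⟨q, hq, hqa, hqy⟩ := h.exists_aux a y (S ∪ T) hy'
    have hqS : q ∉ S := fun h' => hq (Finset.mem_union_left _ h')
    have hqS' : q ∉ (S : Set V) := by simpa using hqS
    have hqT : q ∉ T := fun h' => hq (Finset.mem_union_right _ h')
    have hqb : q ∉ Sbase := fun hb => hqS (hS hb)
    refine ⟨insert q T, ?_, ?_, ?_, ?_, ?_⟩
    · intro q' hq'
      rcases Finset.mem_insert.1 hq' with rfl | h'
      · exact hqS
      · exact hTS q' h'
    · rw [Finset.card_insert_of_notMem hqT, hTc]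
    · intro q' hq'
      rcases Finset.mem_insert.1 hq' with rfl | h'
      · exact hqa
      · exact hTa q' h'
    · rw [Finset.coe_insert, KT_insert]
      have h5 : (Kq p loc q).relIndex (KT p loc B (T : Set V)) = p := by
        have hd := h.relIndex_Kq_dvd hqb (K := KT p loc B (T : Set V))
          (fun g hg => mem_GS.1 (KT_le hg) q hqS')
        rcases (Nat.dvd_prime hp).1 hd with h6 | h6
        · exact absurd (relIndex_eq_one.1 h6 hyK) hqy
        · exact h6
      have h6 := relIndex_mul_relIndex (H := KT p loc B (T : Set V) ⊓ Kq p loc q)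
        (K := KT p loc B (T : Set V)) (L := B) inf_le_left KT_le
      rw [← h6, hTi, inf_comm, inf_relIndex_right, h5, pow_succ, mul_comm]
    · intro u hu
      obtain ⟨b₀, hb₀, hb₀T⟩ := hTsurj u (fun q' hq' => hu q' (by
        simp only [Finset.coe_insert, Set.mem_insert_iff]
        exact Or.inr hq'))
      have hc : u q / loc q b₀ ∈ U q :=
        (U q).div_mem (hu q (by simp)) (mem_GS.1 hb₀ q hqS')
      have hyU : loc q y ∈ U q := mem_GS.1 hyB q hqS'
      have hyUp : loc q y ∉ (U q).map (powMonoidHom p) := fun h' => hqy (map_pow_le_pPow p _ h')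
      have h7 := le_zpowers_sup_of_relIndex_prime hp (map_pow_le p (U q)) (h.unit_index q hqb)
        hyU hyUp hc
      obtain ⟨c₁, hc₁, d, hd, hcd⟩ := mem_sup.1 h7
      obtain ⟨i, rfl⟩ := mem_zpowers_iff.1 hc₁
      refine ⟨b₀ * y ^ i, B.mul_mem hb₀ (B.zpow_mem hyB i), ?_⟩
      intro q' hq'
      simp only [Finset.coe_insert, Set.mem_insert_iff, Finset.mem_coe] at hq'
      rcases hq' with rfl | h'
      · have h9 : u q' / loc q' (b₀ * y ^ i) = d := by
          rw [map_mul, map_zpow, ← div_div, ← hcd]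
          simp
        rw [h9]
        exact hd
      · have hq'S : q' ∉ (S : Set V) := by simpa using hTS q' h'
        have h8 : loc q' y ∈ (U q').map (powMonoidHom p) :=
          h.mem_map_pow (fun hb => hTS q' h' (hS hb)) ((mem_KT.1 hyK).2 q' (by simpa using h'))
            (mem_GS.1 hyB q' hq'S)
        have h9 : u q' / loc q' (b₀ * y ^ i) = (u q' / loc q' b₀) / (loc q' y) ^ i := by
          rw [map_mul, map_zpow, div_div]
        rw [h9]
        exact Subgroup.div_mem _ (hb₀T q' (by simpa using h')) (Subgroup.zpow_mem _ h8 i)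

/-- **Existence of the auxiliary set `T`.** -/
theorem exists_T (hp : p.Prime) (a : G) (ha : a ∉ pPow p G)
    (S : Finset V) (hS : Sbase ⊆ S) (haS : ∀ v, v ∉ S → loc v a ∈ U v) :
    ∃ T : Finset V, (∀ q ∈ T, q ∉ S) ∧ T.card + 1 = S.card ∧
      (∀ q ∈ T, loc q a ∈ pPow p (X q)) ∧
      SurjT p U loc (GS U loc (S : Set V)) (T : Set V) := by
  -- `S.card ≥ 1`
  have haB : a ∈ GS U loc (S : Set V) := mem_GS.2 (fun v hv => haS v (by simpa using hv))
  have hidx := h.sUnit S hS
  obtain ⟨s, hs⟩ : ∃ s, S.card = s + 1 := by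
    rcases Nat.eq_zero_or_pos S.card with h0 | h0
    · exfalso
      rw [h0, pow_zero, relIndex_eq_one] at hidx
      exact ha (map_pow_le_pPow p _ (hidx haB))
    · exact ⟨S.card - 1, by omega⟩
  obtain ⟨T, hTS, hTc, hTa, -, hTsurj⟩ := h.exists_T_aux hp a ha S hS haS s hs s le_rfl
  exact ⟨T, hTS, by omega, hTa, hTsurj⟩

end KummerHyp

end Fermat.Agent.S55.H8
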