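/-
Program C (S55), package C7 — abstract core, part D: the key lemma, the two index counts
and the abstract second inequality

  `KummerHyp p U loc Sbase Nloc → ∀ a, (J : P · NmLoc a) ∣ p`.
-/
import Fermat.Agent.S55.H8.KummerCoreC

namespace Fermat.Agent.S55.H8

open Subgroup

variable {G : Type*} [CommGroup G] {V : Type*} {X : V → Type*} [∀ v, CommGroup (X v)]
variable {p : ℕ} {U : ∀ v, Subgroup (X v)} {loc : ∀ v, G →* X v} {Sbase : Finset V}
  {Nloc : G → ∀ v, Subgroup (X v)}

/-- `D = ∏_{v ∈ S} X_v × ∏_{v ∈ T} U_v^p × ∏_{else} U_v`. -/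
def Dgrp (p : ℕ) (U : ∀ v, Subgroup (X v)) (S T : Set V) : Subgroup (∀ v, X v) :=
  Subgroup.pi T (fun v => (U v).map (powMonoidHom p)) ⊓ JS U S

/-- `E = ∏_{v ∈ S} X_v^p × ∏_{v ∈ T} X_v × ∏_{else} U_v`. -/
def Egrp (p : ℕ) (U : ∀ v, Subgroup (X v)) (S T : Set V) : Subgroup (∀ v, X v) :=
  Subgroup.pi S (fun v => pPow p (X v)) ⊓ JS U (S ∪ T)

theorem mem_Dgrp {S T : Set V} {x : ∀ v, X v} :
    x ∈ Dgrp p U S T ↔ (∀ q ∈ T, x q ∈ (U q).map (powMonoidHom p)) ∧ ∀ v, v ∉ S → x v ∈ U v := by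
  rw [Dgrp, Subgroup.mem_inf, Subgroup.mem_pi, mem_JS]

theorem mem_Egrp {S T : Set V} {x : ∀ v, X v} :
    x ∈ Egrp p U S T ↔ (∀ v ∈ S, x v ∈ pPow p (X v)) ∧ ∀ v, v ∉ S ∪ T → x v ∈ U v := by
  rw [Egrp, Subgroup.mem_inf, Subgroup.mem_pi, mem_JS]

/-- `(W : E) = ∏_{v ∈ S} (X_v : X_v^p)`. -/
theorem relIndex_Egrp (p : ℕ) (U : ∀ v, Subgroup (X v)) (S : Finset V) (T : Set V) :
    (Egrp p U (S : Set V) T).relIndex (JS U ((S : Set V) ∪ T))
      = ∏ v ∈ S, (pPow p (X v)).index := by
  classical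
  let φ : (∀ v, X v) →* (∀ v : S, X v ⧸ pPow p (X v)) :=
    MonoidHom.pi (fun v => (QuotientGroup.mk' (pPow p (X v))).comp (Pi.evalMonoidHom X v))
  have hφ : ∀ (x : ∀ v, X v) (v : S), φ x v = QuotientGroup.mk (x v) := fun x v => rfl
  have hker : φ.ker = Subgroup.pi (S : Set V) (fun v => pPow p (X v)) := by
    ext x
    rw [MonoidHom.mem_ker, Subgroup.mem_pi]
    constructor
    · intro hx v hv
      have := congrFun hx ⟨v, hv⟩
      rw [hφ] at this
      exact (QuotientGroup.eq_one_iff _).1 this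
    · intro hx
      funext v
      rw [hφ]
      exact (QuotientGroup.eq_one_iff _).2 (hx v v.2)
  have hsurj : (JS U ((S : Set V) ∪ T)).map φ = ⊤ := by
    rw [eq_top_iff]
    intro c _
    refine ⟨fun v => if hv : v ∈ S then (c ⟨v, hv⟩).out else 1, ?_, ?_⟩
    · rw [SetLike.mem_coe, mem_JS]
      intro v hv
      have hvS : v ∉ S := fun h' => hv (Or.inl (by simpa using h'))
      rw [dif_neg hvS]
      exact (U v).one_mem
    · funext v
      rw [hφ, dif_pos v.2]
      exact QuotientGroup.out_eq' _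
  rw [Egrp, ← hker, inf_relIndex_right, relIndex_ker, hsurj, Subgroup.card_top, Nat.card_pi]
  rw [← Finset.prod_coe_sort S (fun v => (pPow p (X v)).index)]
  refine Finset.prod_congr rfl (fun v _ => ?_)
  rw [index_eq_card]

namespace KummerHyp

variable (h : KummerHyp p U loc Sbase Nloc)
include h

/-- `J = kˣ · D`. -/
theorem resProd_le_principal_sup_Dgrp (S : Finset V) (hS : Sbase ⊆ S) (T : Set V)
    (hTS : ∀ q ∈ T, q ∉ S) (hsurj : SurjT p U loc (GS U loc (S : Set V)) T) :
    resProd U ≤ principal loc ⊔ Dgrp p U (S : Set V) T := by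
  refine (h.classNumber S hS).trans (sup_le le_sup_left ?_)
  intro x hx
  obtain ⟨b, hb, hbT⟩ := hsurj x (fun q hq => mem_JS.1 hx q (by simpa using hTS q hq))
  have hx' : x = diag loc b * (x / diag loc b) := by
    rw [mul_div_cancel]
  rw [hx']
  refine mul_mem (le_sup_left (a := principal loc) ⟨b, rfl⟩) (le_sup_right (a := principal loc) ?_)
  refine mem_Dgrp.2 ⟨fun q hq => ?_, fun v hv => ?_⟩
  · exact hbT q hq
  · exact (U v).div_mem (mem_JS.1 hx v hv) (mem_GS.1 hb v hv)

/-- **Key lemma**: `E ∩ kˣ = k_{S ∪ T}^p`. -/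
theorem key_lemma (hp : p.Prime) (S T : Finset V) (hS : Sbase ⊆ S)
    (hTS : ∀ q ∈ T, q ∉ S) (hsurj : SurjT p U loc (GS U loc (S : Set V)) (T : Set V))
    (x : G) (hx : diag loc x ∈ Egrp p U (S : Set V) (T : Set V)) :
    x ∈ (GS U loc ((S : Set V) ∪ (T : Set V))).map (powMonoidHom p) := by
  obtain ⟨hxS, hxU⟩ := mem_Egrp.1 hx
  have hxp : x ∈ pPow p G := by
    by_contra hxp
    apply h.firstIneq x hxp
    refine (h.resProd_le_principal_sup_Dgrp S hS (T : Set V)
      (fun q hq => hTS q (by simpa using hq)) hsurj).trans (sup_le_sup_left ?_ _)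
    intro y hy
    obtain ⟨hyT, hyS⟩ := mem_Dgrp.1 hy
    refine mem_NmLoc.2 ⟨JS_le_resProd U S.finite_toSet (mem_JS.2 hyS), fun v => ?_⟩
    by_cases hvS : v ∈ (S : Set V)
    · rw [h.norm_top_of_pow x v (hxS v hvS)]
      trivial
    · by_cases hvT : v ∈ (T : Set V)
      · exact h.pow_le_norm x v (map_pow_le_pPow p _ (hyT v hvT))
      · have hvb : v ∉ Sbase := fun hb => hvS (by simpa using hS hb)
        have hvST : v ∉ (S : Set V) ∪ (T : Set V) := fun h' => h'.elim hvS hvT
        exact h.unit_le_norm hp x hvb (hxU v hvST) (hyS v hvS)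
  obtain ⟨z, rfl⟩ := hxp
  refine ⟨z, mem_GS.2 (fun v hv => ?_), rfl⟩
  have hvb : v ∉ Sbase := fun hb => hv (Or.inl (by simpa using hS hb))
  refine h.unit_of_pow v hvb _ ?_
  have := hxU v hv
  simpa [map_pow] using this

/-- `E ≤ N J_K`. -/
theorem Egrp_le_NmLoc (hp : p.Prime) (a : G) (S T : Finset V) (hS : Sbase ⊆ S)
    (haS : ∀ v, v ∉ S → loc v a ∈ U v) (hTa : ∀ q ∈ T, loc q a ∈ pPow p (X q)) :
    Egrp p U (S : Set V) (T : Set V) ≤ NmLoc U (Nloc a) := by
  intro x hx
  obtain ⟨hxS, hxU⟩ := mem_Egrp.1 hx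
  refine mem_NmLoc.2 ⟨JS_le_resProd U (S.finite_toSet.union T.finite_toSet) (mem_JS.2 hxU),
    fun v => ?_⟩
  by_cases hvS : v ∈ (S : Set V)
  · exact h.pow_le_norm a v (hxS v hvS)
  · by_cases hvT : v ∈ (T : Set V)
    · rw [h.norm_top_of_pow a v (hTa v (by simpa using hvT))]
      trivial
    · have hvb : v ∉ Sbase := fun hb => hvS (by simpa using hS hb)
      have hvST : v ∉ (S : Set V) ∪ (T : Set V) := fun h' => h'.elim hvS hvT
      exact h.unit_le_norm hp a hvb (haS v (by simpa using hvS)) (hxU v hvST)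

/-- `(W ∩ kˣ : E ∩ kˣ) = p^{|S ∪ T|}`. -/
theorem relIndex_units [DecidableEq V] (hp : p.Prime) (S T : Finset V) (hS : Sbase ⊆ S)
    (hTS : ∀ q ∈ T, q ∉ S) (hsurj : SurjT p U loc (GS U loc (S : Set V)) (T : Set V)) :
    (Egrp p U (S : Set V) (T : Set V) ⊓ principal loc).relIndex
        (JS U ((S : Set V) ∪ (T : Set V)) ⊓ principal loc) = p ^ (S ∪ T).card := by
  have hW : JS U ((S : Set V) ∪ (T : Set V)) ⊓ principal loc
      = (GS U loc ((S : Set V) ∪ (T : Set V))).map (diag loc) := by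
    rw [GS, map_comap_eq, inf_comm]
    rfl
  have hE : Egrp p U (S : Set V) (T : Set V) ⊓ principal loc
      = ((GS U loc ((S : Set V) ∪ (T : Set V))).map (powMonoidHom p)).map (diag loc) := by
    apply le_antisymm
    · rintro _ ⟨hxE, ⟨x, rfl⟩⟩
      exact ⟨x, h.key_lemma hp S T hS hTS hsurj x hxE, rfl⟩
    · rintro _ ⟨_, ⟨z, hz, rfl⟩, rfl⟩
      refine ⟨mem_Egrp.2 ⟨fun v _ => ?_, fun v hv => ?_⟩, ⟨_, rfl⟩⟩
      · exact ⟨loc v z, by simp⟩
      · have := (U v).pow_mem (mem_GS.1 hz v hv) p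
        simpa [map_pow] using this
  rw [hW, hE, relIndex_map_map_of_injective _ _ h.diag_inj]
  have := h.sUnit (S ∪ T) (hS.trans Finset.subset_union_left)
  rwa [Finset.coe_union] at this

end KummerHyp

/-- **C7, abstract second inequality (Kummer case).**  Under the hypotheses `KummerHyp`
on an idele system, for every `a : G` the group of ideles that are everywhere local norms
from `k(a^{1/p})` has index dividing `p` modulo principal ideles. -/
theorem second_inequality_abstract (hp : p.Prime) (h : KummerHyp p U loc Sbase Nloc) (a : G) :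
    (principal loc ⊔ NmLoc U (Nloc a)).relIndex (resProd U) ∣ p := by
  classical
  by_cases ha : a ∈ pPow p G
  · have h1 : resProd U ≤ principal loc ⊔ NmLoc U (Nloc a) := by
      refine le_sup_of_le_right ?_
      intro x hx
      refine mem_NmLoc.2 ⟨hx, fun v => ?_⟩
      have hv : loc v a ∈ pPow p (X v) := by
        obtain ⟨y, rfl⟩ := ha
        exact ⟨loc v y, by simp⟩
      rw [h.norm_top_of_pow a v hv]
      trivial
    rw [relIndex_eq_one.2 h1]
    exact one_dvd p
  · set S : Finset V := Sbase ∪ (h.finite_nonunit a).toFinset with hSdef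
    have hS : Sbase ⊆ S := Finset.subset_union_left
    have haS : ∀ v, v ∉ S → loc v a ∈ U v := by
      intro v hv
      by_contra h'
      exact hv (Finset.mem_union_right _ ((Set.Finite.mem_toFinset _).2 h'))
    obtain ⟨T, hTS, hTc, hTa, hsurj⟩ := h.exists_T hp a ha S hS haS
    have hdisj : Disjoint S T := Finset.disjoint_right.2 hTS
    have hcard : (S ∪ T).card = 2 * S.card - 1 := by
      rw [Finset.card_union_of_disjoint hdisj]
      omega
    have hWE := relIndex_Egrp p U S (T : Set V)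
    rw [h.local_index S hS] at hWE
    have hunits := h.relIndex_units hp S T hS hTS hsurj
    rw [hcard] at hunits
    have hs : 0 < S.card := by omega
    have hE : Egrp p U (S : Set V) (T : Set V) ≤ JS U ((S : Set V) ∪ (T : Set V)) := inf_le_right
    have key := relIndex_sup_dvd_of_counts (principal loc) (JS U ((S : Set V) ∪ (T : Set V)))
      (Egrp p U (S : Set V) (T : Set V)) (NmLoc U (Nloc a)) hE
      (h.Egrp_le_NmLoc hp a S T hS haS hTa) hp.pos hs hWE hunits
    have hJ : principal loc ⊔ JS U ((S : Set V) ∪ (T : Set V)) = resProd U := by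
      apply le_antisymm
      · exact sup_le h.principal_le_resProd
          (JS_le_resProd U (S.finite_toSet.union T.finite_toSet))
      · have := h.classNumber (S ∪ T) (hS.trans Finset.subset_union_left)
        rwa [Finset.coe_union] at this
    rwa [hJ] at key

end Fermat.Agent.S55.H8
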