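/-
Program C (S55), package C7 — the abstract second inequality with a rank offset `r`.

Same as `KummerHyp` / `second_inequality_abstract`, for an idele system that contains only the
FINITE places: the `r` archimedean places (all complex, `k ⊇ μ_p`, `p` odd) contribute nothing to
the ideles modulo `p`-th powers, but they contribute `r` to the rank of the `S`-units:
`(k_S : k_S^p) = p^(r + |S|)` and `∏_{v ∈ S} (k_vˣ : k_vˣ^p) = p^(2 (r + |S|))`.
-/
import Fermat.Agent.S55.H8.KummerCore

namespace Fermat.Agent.S55.H8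

open Subgroup

variable {G : Type*} [CommGroup G] {V : Type*} {X : V → Type*} [∀ v, CommGroup (X v)]

/-- **Interface of C7, with `r` extra (archimedean) places that carry no local group.**
The hypotheses on an idele system under which the abstract
Kummer-theoretic second inequality holds.  In the intended model: `G = kˣ` for a number field
`k ⊇ μ_p`, `p` odd; `Sbase` = archimedean places, places above `p`, and finitely many places
generating the class group; `Nloc g v` = the norm group of `k_v(g^{1/p}) / k_v`. -/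
structure KummerHypR (p r : ℕ) (U : ∀ v, Subgroup (X v)) (loc : ∀ v, G →* X v)
    (Sbase : Finset V) (Nloc : G → ∀ v, Subgroup (X v)) : Prop where
  /-- `kˣ → J_k` is injective. -/
  diag_inj : Function.Injective (diag loc)
  /-- a global element is a unit at almost all places. -/
  finite_nonunit : ∀ g : G, {v | loc v g ∉ U v}.Finite
  /-- finiteness of the class group: `J = kˣ · J_S` for `S ⊇ Sbase`. -/
  classNumber : ∀ S : Finset V, Sbase ⊆ S →
    resProd U ≤ principal loc ⊔ JS U (S : Set V)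
  /-- `S`-unit theorem (with `μ_p ⊆ k`): `(k_S : k_S^p) = p^{|S|}`. -/
  sUnit : ∀ S : Finset V, Sbase ⊆ S →
    ((GS U loc (S : Set V)).map (powMonoidHom p)).relIndex (GS U loc (S : Set V)) = p ^ (r + S.card)
  /-- `(U_v : U_v^p) = p` for `v ∉ Sbase`. -/
  unit_index : ∀ v, v ∉ Sbase → ((U v).map (powMonoidHom p)).relIndex (U v) = p
  /-- `X_v / U_v` has no `p`-torsion for `v ∉ Sbase`. -/
  unit_of_pow : ∀ v, v ∉ Sbase → ∀ x : X v, x ^ p ∈ U v → x ∈ U v
  /-- `∏_{v ∈ S} (k_vˣ : k_vˣ^p) = p^{2|S|}` for `S ⊇ Sbase`. -/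
  local_index : ∀ S : Finset V, Sbase ⊆ S →
    ∏ v ∈ S, (pPow p (X v)).index = p ^ (2 * (r + S.card))
  /-- `p`-th powers are local norms. -/
  pow_le_norm : ∀ (g : G) (v : V), pPow p (X v) ≤ Nloc g v
  /-- if `g` is a local `p`-th power, every local element is a norm. -/
  norm_top_of_pow : ∀ (g : G) (v : V), loc v g ∈ pPow p (X v) → Nloc g v = ⊤
  /-- `g` itself is a local norm from `k_v(g^{1/p})` (`p` odd: `N(g^{1/p}) = g`). -/
  self_mem_norm : ∀ (g : G) (v : V), loc v g ∈ Nloc g v
  /-- first inequality for `k(g^{1/p}) / k`. -/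
  firstIneq : ∀ g : G, g ∉ pPow p G →
    ¬ (resProd U ≤ principal loc ⊔ NmLoc U (Nloc g))
  /-- existence of auxiliary places. -/
  exists_aux : ∀ (a y : G) (S' : Finset V), y ∉ Subgroup.zpowers a ⊔ pPow p G →
    ∃ v, v ∉ S' ∧ loc v a ∈ pPow p (X v) ∧ loc v y ∉ pPow p (X v)


variable {p r : ℕ} {U : ∀ v, Subgroup (X v)} {loc : ∀ v, G →* X v} {Sbase : Finset V}
  {Nloc : G → ∀ v, Subgroup (X v)}

namespace KummerHypR

variable (h : KummerHypR p r U loc Sbase Nloc)
include h



/-- `X_v^p ∩ U_v = U_v^p` outside `Sbase`. -/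
theorem mem_map_pow {v : V} (hv : v ∉ Sbase) {x : X v} (hx : x ∈ pPow p (X v))
    (hxU : x ∈ U v) : x ∈ (U v).map (powMonoidHom p) := by
  obtain ⟨y, rfl⟩ := hx
  exact ⟨y, h.unit_of_pow v hv y hxU, rfl⟩

/-- units are local norms outside `Sbase` when `g` is a local unit. -/
theorem unit_le_norm (hp : p.Prime) (g : G) {v : V} (hv : v ∉ Sbase) (hg : loc v g ∈ U v) :
    U v ≤ Nloc g v := by
  by_cases hgp : loc v g ∈ pPow p (X v)
  · rw [h.norm_top_of_pow g v hgp]
    exact le_top
  · have hgU : loc v g ∉ (U v).map (powMonoidHom p) := fun h' => hgp (map_pow_le_pPow p _ h')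
    have h1 := le_zpowers_sup_of_relIndex_prime hp (map_pow_le p (U v)) (h.unit_index v hv) hg hgU
    refine h1.trans (sup_le ?_ ?_)
    · exact (zpowers_le).2 (h.self_mem_norm g v)
    · exact (map_pow_le_pPow p _).trans (h.pow_le_norm g v)

/-- principal ideles are ideles. -/
theorem principal_le_resProd : principal loc ≤ resProd U := by
  rintro x ⟨g, rfl⟩
  exact h.finite_nonunit g





/-- the index step: `(K : K ∩ Kq v) ∣ p` if `K` consists of local units at `v ∉ Sbase`. -/
theorem relIndex_Kq_dvd {v : V} (hv : v ∉ Sbase) {K : Subgroup G}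
    (hK : ∀ g ∈ K, loc v g ∈ U v) : (Kq p loc v).relIndex K ∣ p := by
  have hM : K.map (loc v) ≤ U v := by
    rintro x ⟨g, hg, rfl⟩
    exact hK g hg
  have h1 : (Kq p loc v).relIndex K = (pPow p (X v)).relIndex (K.map (loc v)) :=
    relIndex_comap _ _ _
  have h2 : (pPow p (X v)).relIndex (K.map (loc v))
      = ((U v).map (powMonoidHom p)).relIndex (K.map (loc v)) := by
    rw [← inf_relIndex_right (pPow p (X v)), ← inf_relIndex_right ((U v).map (powMonoidHom p))]
    congr 1
    apply le_antisymm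
    · intro x hx
      exact ⟨h.mem_map_pow hv hx.1 (hM hx.2), hx.2⟩
    · intro x hx
      exact ⟨map_pow_le_pPow p _ hx.1, hx.2⟩
  rw [h1, h2]
  have h3 : ((U v).map (powMonoidHom p)).relIndex (K.map (loc v))
      ∣ ((U v).map (powMonoidHom p)).relIndex (U v) := relIndex_dvd_relIndex_of_le hM
  rwa [h.unit_index v hv] at h3





/-- the inductive construction of `T`. -/
theorem exists_T_aux (hp : p.Prime) (a : G) (ha : a ∉ pPow p G)
    (S : Finset V) (hS : Sbase ⊆ S) (haS : ∀ v, v ∉ S → loc v a ∈ U v) (s : ℕ)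
    (hs : r + S.card = s + 1) (j : ℕ) (hj : j ≤ s) :
    ∃ T : Finset V, (∀ q ∈ T, q ∉ S) ∧ T.card = j ∧ (∀ q ∈ T, loc q a ∈ pPow p (X q)) ∧
      (KT p loc (GS U loc (S : Set V)) (T : Set V)).relIndex (GS U loc (S : Set V)) = p ^ j ∧
      SurjT p U loc (GS U loc (S : Set V)) (T : Set V) := by
  classical
  set B := GS U loc (S : Set V) with hB
  set Bp := B.map (powMonoidHom p) with hBp
  set A₀ := zpowers a ⊔ Bp with hA₀
  have haB : a ∈ B := mem_GS.2 (fun v hv => haS v (by simpa using hv))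
  have haBp : a ∉ Bp := fun h' => ha (map_pow_le_pPow p _ h')
  have hBpB : Bp ≤ B := map_pow_le p B
  have hA₀B : A₀ ≤ B := sup_le ((zpowers_le).2 haB) hBpB
  have hidx : Bp.relIndex B = p ^ (r + S.card) := h.sUnit S hS
  have h1 : Bp.relIndex A₀ = p := by
    rw [hA₀, relIndex_sup_right]
    exact relIndex_zpowers_of_pow_mem hp ⟨a, haB, rfl⟩ haBp
  have h2 : p * A₀.relIndex B = p ^ (r + S.card) := by
    rw [← hidx, ← relIndex_mul_relIndex (H := Bp) (K := A₀) (L := B) le_sup_right hA₀B, h1]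
  have h3 : A₀.relIndex B = p ^ s := by
    rw [hs, pow_succ] at h2
    have h2' : p * A₀.relIndex B = p * p ^ s := by rw [h2, mul_comm]
    exact Nat.eq_of_mul_eq_mul_left hp.pos h2'
  induction j with
  | zero =>
    refine ⟨∅, by simp, rfl, by simp, ?_, ?_⟩
    · rw [Finset.coe_empty, KT_empty, relIndex_self, pow_zero]
    · intro u _
      exact ⟨1, B.one_mem, by simp⟩
  | succ j ih =>
    obtain ⟨T, hTS, hTc, hTa, hTi, hTsurj⟩ := ih (by omega)
    have hA₀K : A₀ ≤ KT p loc B (T : Set V) := by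
      refine sup_le ((zpowers_le).2 (mem_KT.2 ⟨haB, fun q hq => hTa q (by simpa using hq)⟩)) ?_
      rintro x ⟨y, hy, rfl⟩
      refine mem_KT.2 ⟨B.pow_mem hy p, fun q _ => ?_⟩
      exact ⟨loc q y, by simp⟩
    have h4 := relIndex_mul_relIndex (H := A₀) (K := KT p loc B (T : Set V)) (L := B) hA₀K KT_le
    rw [hTi, h3] at h4
    have hne : ¬ KT p loc B (T : Set V) ≤ A₀ := by
      intro hle
      rw [relIndex_eq_one.2 hle, one_mul] at h4
      have := Nat.pow_right_injective hp.two_le h4
      omega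
    obtain ⟨y, hyK, hyA⟩ := SetLike.not_le_iff_exists.1 hne
    have hyB : y ∈ B := KT_le hyK
    have hy' : y ∉ zpowers a ⊔ pPow p G := by
      intro hy
      obtain ⟨y₁, hy₁, z₁, hz₁, rfl⟩ := mem_sup.1 hy
      obtain ⟨w, rfl⟩ := hz₁
      apply hyA
      refine mem_sup.2 ⟨y₁, hy₁, _, ?_, rfl⟩
      have hy₁B : y₁ ∈ B := (zpowers_le).2 haB hy₁
      have hzB : (powMonoidHom p) w ∈ B := by
        have := B.mul_mem (B.inv_mem hy₁B) hyB
        simpa using this
      refine ⟨w, mem_GS.2 (fun v hv => h.unit_of_pow v (fun hvb => hv (hS hvb)) _ ?_), rfl⟩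
      have := mem_GS.1 hzB v hv
      simpa [map_pow] using this
    obtain ⟨q, hq, hqa, hqy⟩ := h.exists_aux a y (S ∪ T) hy'
    have hqS : q ∉ S := fun h' => hq (Finset.mem_union_left _ h')
    have hqS' : q ∉ (S : Set V) := by simpa using hqS
    have hqT : q ∉ T := fun h' => hq (Finset.mem_union_right _ h')
    have hqb : q ∉ Sbase := fun hb => hqS (hS hb)
    refine ⟨insert q T, ?_, ?_, ?_, ?_, ?_⟩
    · intro q' hq'
      rcases Finset.mem_insert.1 hq' with rfl | h'
      · exact hqS
      · exact hTS q' h'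
    · rw [Finset.card_insert_of_notMem hqT, hTc]
    · intro q' hq'
      rcases Finset.mem_insert.1 hq' with rfl | h'
      · exact hqa
      · exact hTa q' h'
    · rw [Finset.coe_insert, KT_insert]
      have h5 : (Kq p loc q).relIndex (KT p loc B (T : Set V)) = p := by
        have hd := h.relIndex_Kq_dvd hqb (K := KT p loc B (T : Set V))
          (fun g hg => mem_GS.1 (KT_le hg) q hqS')
        rcases (Nat.dvd_prime hp).1 hd with h6 | h6
        · exact absurd (relIndex_eq_one.1 h6 hyK) hqy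
        · exact h6
      have h6 := relIndex_mul_relIndex (H := KT p loc B (T : Set V) ⊓ Kq p loc q)
        (K := KT p loc B (T : Set V)) (L := B) inf_le_left KT_le
      rw [← h6, hTi, inf_comm, inf_relIndex_right, h5, pow_succ, mul_comm]
    · intro u hu
      obtain ⟨b₀, hb₀, hb₀T⟩ := hTsurj u (fun q' hq' => hu q' (by
        simp only [Finset.coe_insert, Set.mem_insert_iff]
        exact Or.inr hq'))
      have hc : u q / loc q b₀ ∈ U q :=
        (U q).div_mem (hu q (by simp)) (mem_GS.1 hb₀ q hqS')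
      have hyU : loc q y ∈ U q := mem_GS.1 hyB q hqS'
      have hyUp : loc q y ∉ (U q).map (powMonoidHom p) := fun h' => hqy (map_pow_le_pPow p _ h')
      have h7 := le_zpowers_sup_of_relIndex_prime hp (map_pow_le p (U q)) (h.unit_index q hqb)
        hyU hyUp hc
      obtain ⟨c₁, hc₁, d, hd, hcd⟩ := mem_sup.1 h7
      obtain ⟨i, rfl⟩ := mem_zpowers_iff.1 hc₁
      refine ⟨b₀ * y ^ i, B.mul_mem hb₀ (B.zpow_mem hyB i), ?_⟩
      intro q' hq'
      simp only [Finset.coe_insert, Set.mem_insert_iff, Finset.mem_coe] at hq'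
      rcases hq' with rfl | h'
      · have h9 : u q' / loc q' (b₀ * y ^ i) = d := by
          rw [map_mul, map_zpow, ← div_div, ← hcd]
          simp
        rw [h9]
        exact hd
      · have hq'S : q' ∉ (S : Set V) := by simpa using hTS q' h'
        have h8 : loc q' y ∈ (U q').map (powMonoidHom p) :=
          h.mem_map_pow (fun hb => hTS q' h' (hS hb)) ((mem_KT.1 hyK).2 q' (by simpa using h'))
            (mem_GS.1 hyB q' hq'S)
        have h9 : u q' / loc q' (b₀ * y ^ i) = (u q' / loc q' b₀) / (loc q' y) ^ i := by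
          rw [map_mul, map_zpow, div_div]
        rw [h9]
        exact Subgroup.div_mem _ (hb₀T q' (by simpa using h')) (Subgroup.zpow_mem _ h8 i)

/-- **Existence of the auxiliary set `T`.** -/
theorem exists_T (hp : p.Prime) (a : G) (ha : a ∉ pPow p G)
    (S : Finset V) (hS : Sbase ⊆ S) (haS : ∀ v, v ∉ S → loc v a ∈ U v) :
    ∃ T : Finset V, (∀ q ∈ T, q ∉ S) ∧ T.card + 1 = r + S.card ∧
      (∀ q ∈ T, loc q a ∈ pPow p (X q)) ∧
      SurjT p U loc (GS U loc (S : Set V)) (T : Set V) := by
  -- `S.card ≥ 1`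
  have haB : a ∈ GS U loc (S : Set V) := mem_GS.2 (fun v hv => haS v (by simpa using hv))
  have hidx := h.sUnit S hS
  obtain ⟨s, hs⟩ : ∃ s, r + S.card = s + 1 := by
    rcases Nat.eq_zero_or_pos (r + S.card) with h0 | h0
    · exfalso
      rw [h0, pow_zero, relIndex_eq_one] at hidx
      exact ha (map_pow_le_pPow p _ (hidx haB))
    · exact ⟨r + S.card - 1, by omega⟩
  obtain ⟨T, hTS, hTc, hTa, -, hTsurj⟩ := h.exists_T_aux hp a ha S hS haS s hs s le_rfl
  exact ⟨T, hTS, by omega, hTa, hTsurj⟩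





/-- `J = kˣ · D`. -/
theorem resProd_le_principal_sup_Dgrp (S : Finset V) (hS : Sbase ⊆ S) (T : Set V)
    (hTS : ∀ q ∈ T, q ∉ S) (hsurj : SurjT p U loc (GS U loc (S : Set V)) T) :
    resProd U ≤ principal loc ⊔ Dgrp p U (S : Set V) T := by
  refine (h.classNumber S hS).trans (sup_le le_sup_left ?_)
  intro x hx
  obtain ⟨b, hb, hbT⟩ := hsurj x (fun q hq => mem_JS.1 hx q (by simpa using hTS q hq))
  have hx' : x = diag loc b * (x / diag loc b) := by
    rw [mul_div_cancel]
  rw [hx']
  refine mul_mem (le_sup_left (a := principal loc) ⟨b, rfl⟩) (le_sup_right (a := principal loc) ?_)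
  refine mem_Dgrp.2 ⟨fun q hq => ?_, fun v hv => ?_⟩
  · exact hbT q hq
  · exact (U v).div_mem (mem_JS.1 hx v hv) (mem_GS.1 hb v hv)

/-- **Key lemma**: `E ∩ kˣ = k_{S ∪ T}^p`. -/
theorem key_lemma (hp : p.Prime) (S T : Finset V) (hS : Sbase ⊆ S)
    (hTS : ∀ q ∈ T, q ∉ S) (hsurj : SurjT p U loc (GS U loc (S : Set V)) (T : Set V))
    (x : G) (hx : diag loc x ∈ Egrp p U (S : Set V) (T : Set V)) :
    x ∈ (GS U loc ((S : Set V) ∪ (T : Set V))).map (powMonoidHom p) := by
  obtain ⟨hxS, hxU⟩ := mem_Egrp.1 hx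
  have hxp : x ∈ pPow p G := by
    by_contra hxp
    apply h.firstIneq x hxp
    refine (h.resProd_le_principal_sup_Dgrp S hS (T : Set V)
      (fun q hq => hTS q (by simpa using hq)) hsurj).trans (sup_le_sup_left ?_ _)
    intro y hy
    obtain ⟨hyT, hyS⟩ := mem_Dgrp.1 hy
    refine mem_NmLoc.2 ⟨JS_le_resProd U S.finite_toSet (mem_JS.2 hyS), fun v => ?_⟩
    by_cases hvS : v ∈ (S : Set V)
    · rw [h.norm_top_of_pow x v (hxS v hvS)]
      trivial
    · by_cases hvT : v ∈ (T : Set V)
      · exact h.pow_le_norm x v (map_pow_le_pPow p _ (hyT v hvT))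
      · have hvb : v ∉ Sbase := fun hb => hvS (by simpa using hS hb)
        have hvST : v ∉ (S : Set V) ∪ (T : Set V) := fun h' => h'.elim hvS hvT
        exact h.unit_le_norm hp x hvb (hxU v hvST) (hyS v hvS)
  obtain ⟨z, rfl⟩ := hxp
  refine ⟨z, mem_GS.2 (fun v hv => ?_), rfl⟩
  have hvb : v ∉ Sbase := fun hb => hv (Or.inl (by simpa using hS hb))
  refine h.unit_of_pow v hvb _ ?_
  have := hxU v hv
  simpa [map_pow] using this

/-- `E ≤ N J_K`. -/
theorem Egrp_le_NmLoc (hp : p.Prime) (a : G) (S T : Finset V) (hS : Sbase ⊆ S)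
    (haS : ∀ v, v ∉ S → loc v a ∈ U v) (hTa : ∀ q ∈ T, loc q a ∈ pPow p (X q)) :
    Egrp p U (S : Set V) (T : Set V) ≤ NmLoc U (Nloc a) := by
  intro x hx
  obtain ⟨hxS, hxU⟩ := mem_Egrp.1 hx
  refine mem_NmLoc.2 ⟨JS_le_resProd U (S.finite_toSet.union T.finite_toSet) (mem_JS.2 hxU),
    fun v => ?_⟩
  by_cases hvS : v ∈ (S : Set V)
  · exact h.pow_le_norm a v (hxS v hvS)
  · by_cases hvT : v ∈ (T : Set V)
    · rw [h.norm_top_of_pow a v (hTa v (by simpa using hvT))]
      trivial
    · have hvb : v ∉ Sbase := fun hb => hvS (by simpa using hS hb)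
      have hvST : v ∉ (S : Set V) ∪ (T : Set V) := fun h' => h'.elim hvS hvT
      exact h.unit_le_norm hp a hvb (haS v (by simpa using hvS)) (hxU v hvST)

/-- `(W ∩ kˣ : E ∩ kˣ) = p^{|S ∪ T|}`. -/
theorem relIndex_units [DecidableEq V] (hp : p.Prime) (S T : Finset V) (hS : Sbase ⊆ S)
    (hTS : ∀ q ∈ T, q ∉ S) (hsurj : SurjT p U loc (GS U loc (S : Set V)) (T : Set V)) :
    (Egrp p U (S : Set V) (T : Set V) ⊓ principal loc).relIndex
        (JS U ((S : Set V) ∪ (T : Set V)) ⊓ principal loc) = p ^ (r + (S ∪ T).card) := by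
  have hW : JS U ((S : Set V) ∪ (T : Set V)) ⊓ principal loc
      = (GS U loc ((S : Set V) ∪ (T : Set V))).map (diag loc) := by
    rw [GS, map_comap_eq, inf_comm]
    rfl
  have hE : Egrp p U (S : Set V) (T : Set V) ⊓ principal loc
      = ((GS U loc ((S : Set V) ∪ (T : Set V))).map (powMonoidHom p)).map (diag loc) := by
    apply le_antisymm
    · rintro _ ⟨hxE, ⟨x, rfl⟩⟩
      exact ⟨x, h.key_lemma hp S T hS hTS hsurj x hxE, rfl⟩
    · rintro _ ⟨_, ⟨z, hz, rfl⟩, rfl⟩
      refine ⟨mem_Egrp.2 ⟨fun v _ => ?_, fun v hv => ?_⟩, ⟨_, rfl⟩⟩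
      · exact ⟨loc v z, by simp⟩
      · have := (U v).pow_mem (mem_GS.1 hz v hv) p
        simpa [map_pow] using this
  rw [hW, hE, relIndex_map_map_of_injective _ _ h.diag_inj]
  have := h.sUnit (S ∪ T) (hS.trans Finset.subset_union_left)
  rwa [Finset.coe_union] at this


end KummerHypR

/-- **C7, abstract second inequality (Kummer case).**  Under the hypotheses `KummerHyp`
on an idele system, for every `a : G` the group of ideles that are everywhere local norms
from `k(a^{1/p})` has index dividing `p` modulo principal ideles. -/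
theorem second_inequality_abstractR (hp : p.Prime) (h : KummerHypR p r U loc Sbase Nloc) (a : G) :
    (principal loc ⊔ NmLoc U (Nloc a)).relIndex (resProd U) ∣ p := by
  classical
  by_cases ha : a ∈ pPow p G
  · have h1 : resProd U ≤ principal loc ⊔ NmLoc U (Nloc a) := by
      refine le_sup_of_le_right ?_
      intro x hx
      refine mem_NmLoc.2 ⟨hx, fun v => ?_⟩
      have hv : loc v a ∈ pPow p (X v) := by
        obtain ⟨y, rfl⟩ := ha
        exact ⟨loc v y, by simp⟩
      rw [h.norm_top_of_pow a v hv]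
      trivial
    rw [relIndex_eq_one.2 h1]
    exact one_dvd p
  · set S : Finset V := Sbase ∪ (h.finite_nonunit a).toFinset with hSdef
    have hS : Sbase ⊆ S := Finset.subset_union_left
    have haS : ∀ v, v ∉ S → loc v a ∈ U v := by
      intro v hv
      by_contra h'
      exact hv (Finset.mem_union_right _ ((Set.Finite.mem_toFinset _).2 h'))
    obtain ⟨T, hTS, hTc, hTa, hsurj⟩ := h.exists_T hp a ha S hS haS
    have hdisj : Disjoint S T := Finset.disjoint_right.2 hTS
    have hcard : r + (S ∪ T).card = 2 * (r + S.card) - 1 := by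
      rw [Finset.card_union_of_disjoint hdisj]
      omega
    have hWE := relIndex_Egrp p U S (T : Set V)
    rw [h.local_index S hS] at hWE
    have hunits := h.relIndex_units hp S T hS hTS hsurj
    rw [hcard] at hunits
    have hs : 0 < r + S.card := by omega
    have hE : Egrp p U (S : Set V) (T : Set V) ≤ JS U ((S : Set V) ∪ (T : Set V)) := inf_le_right
    have key := relIndex_sup_dvd_of_counts (principal loc) (JS U ((S : Set V) ∪ (T : Set V)))
      (Egrp p U (S : Set V) (T : Set V)) (NmLoc U (Nloc a)) hE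
      (h.Egrp_le_NmLoc hp a S T hS haS hTa) hp.pos hs hWE hunits
    have hJ : principal loc ⊔ JS U ((S : Set V) ∪ (T : Set V)) = resProd U := by
      apply le_antisymm
      · exact sup_le h.principal_le_resProd
          (JS_le_resProd U (S.finite_toSet.union T.finite_toSet))
      · have := h.classNumber (S ∪ T) (hS.trans Finset.subset_union_left)
        rwa [Finset.coe_union] at this
    rwa [hJ] at key


end Fermat.Agent.S55.H8
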