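/-
Program C (S55), package C7 — shared definition: the local norm group of a Kummer algebra.

For a field `F` and `g : F`, `kummerNormGroup p g ≤ Fˣ` is the group of norms of units of the
`F`-algebra `F[X]/(X^p - g)`.  If `F = k_v` is a completion of a number field `k ∋ g` and
`N = k(g^{1/p})`, then `F[X]/(X^p - g) = N ⊗_k k_v`, so this is the local norm group
`Nm((N ⊗_k k_v)ˣ) ≤ k_vˣ` — defined without any reference to places of `N`.
-/
import Mathlib

namespace Fermat.Agent.S55.H8

open Polynomial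

universe u

/-- the group of norms of units of `F[X]/(X^p - g)`. -/
noncomputable def kummerNormGroup (p : ℕ) {F : Type*} [Field F] (g : F) : Subgroup Fˣ :=
  (Units.map (Algebra.norm F : AdjoinRoot (X ^ p - C g : F[X]) →* F)).range

theorem mem_kummerNormGroup {p : ℕ} {F : Type*} [Field F] {g : F} {x : Fˣ} :
    x ∈ kummerNormGroup p g ↔
      ∃ u : (AdjoinRoot (X ^ p - C g : F[X]))ˣ,
        Algebra.norm F (u : AdjoinRoot (X ^ p - C g : F[X])) = x := by
  constructor
  · rintro ⟨u, rfl⟩
    exact ⟨u, rfl⟩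
  · rintro ⟨u, hu⟩
    exact ⟨u, Units.ext hu⟩

/-- (NORM-1) `p`-th powers are norms. -/
def PowLeNormStatement : Prop :=
  ∀ (p : ℕ) (_ : p.Prime) (F : Type u) [Field F] (g : F) (x : Fˣ), x ^ p ∈ kummerNormGroup p g

/-- (NORM-2) for `p` odd, `g` itself is a norm (the norm of the root). -/
def SelfMemNormStatement : Prop :=
  ∀ (p : ℕ) (_ : p.Prime) (_ : p ≠ 2) (F : Type u) [Field F] (g : Fˣ),
    g ∈ kummerNormGroup p (g : F)

/-- (NORM-3) if `F ∋ μ_p` and `g` is a `p`-th power then every unit is a norm. -/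
def NormTopOfPowStatement : Prop :=
  ∀ (p : ℕ) (_ : p.Prime) (F : Type u) [Field F] (ζ : F) (_ : IsPrimitiveRoot ζ p) (c : Fˣ),
    kummerNormGroup p ((c : F) ^ p) = ⊤

end Fermat.Agent.S55.H8
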