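/-
Program C (S55), package C7 — the second inequality (Kummer case) in the EMBEDDING MODEL of
helper88 (`Fermat.Agent.S55.H88`): finite places `FinPlace k` (a rational prime `q` and a
`Gal(PadicAlgCl q / ℚ_q)`-orbit of embeddings `k →+* PadicAlgCl q`), local groups
`finX k v = (locField q τ_v)ˣ`, local units `finU k v`, localisations `finLoc k v`.

The local norm group of `k(g^{1/p}) / k` at `v` is `finNloc k p g v`, the norm group of the
Kummer algebra `k_v[X]/(X^p - g)`.

This file states the concrete leaves of C7 as `Prop`s and assembles them (through the abstract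
theorem `second_inequality_abstractR`) into

  `second_inequality_emb : (J_k : kˣ · {everywhere local norms from k(a^{1/p})}) ∣ p`.
-/
import Fermat.Agent.S55.H88.SemiLocalSpec
import Fermat.Agent.S55.H8.KummerCoreR
import Fermat.Agent.S55.H83.KummerNormH8

set_option autoImplicit false

open Subgroup NumberField

noncomputable section

namespace Fermat.Agent.S55.H8

open Fermat.Agent.S55.H88

/-- (Local instance, as in `H88.SemiLocalSpec`.) -/
local instance factOfPrimesH8 (q : Nat.Primes) : Fact (q : ℕ).Prime := ⟨q.2⟩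

variable (k : Type*) [Field k] [NumberField k] (p : ℕ)

/-- The local norm group of `k(g^{1/p}) / k` at the finite place `v`: norms of units of
`k_v[X]/(X^p - g)`. -/
def finNloc (g : kˣ) (v : FinPlace k) : Subgroup (finX k v) :=
  kummerNormGroup p ((finLoc k v g : finX k v) : v.field)

/-- (UI) `(U_v : U_v^p) = p` outside a finite set of finite places (those above `p`). -/
def UnitIndexStatement : Prop :=
  ∃ T : Finset (FinPlace k), ∀ v : FinPlace k, v ∉ T →
    ((finU k v).map (powMonoidHom p)).relIndex (finU k v) = p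

/-- (LI) `∏_{v ∈ S} (k_vˣ : k_vˣ^p) = p^(2 (r + |S|))`, `r` the number of archimedean places,
for all finite `S` containing a fixed finite set (the places above `p`). -/
def LocalIndexStatement : Prop :=
  ∃ T : Finset (FinPlace k), ∀ S : Finset (FinPlace k), T ⊆ S →
    ∏ v ∈ S, (pPow p (finX k v)).index = p ^ (2 * (Nat.card (InfinitePlace k) + S.card))

/-- (FI) the first inequality for `k(g^{1/p}) / k`, `g` not a `p`-th power (package C6). -/
def FirstIneqStatement : Prop :=
  ∀ g : kˣ, g ∉ pPow p kˣ →
    ¬ (resProd (finU k) ≤ principal (finLoc k) ⊔ NmLoc (finU k) (finNloc k p g))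

/-- (EX) auxiliary places. -/
def ExistsAuxStatement : Prop :=
  ∀ (a y : kˣ) (S' : Finset (FinPlace k)), y ∉ Subgroup.zpowers a ⊔ pPow p kˣ →
    ∃ v : FinPlace k, v ∉ S' ∧ finLoc k v a ∈ pPow p (finX k v) ∧
      finLoc k v y ∉ pPow p (finX k v)

/-- **The conclusion of C7**: for every `a : kˣ`, the ideles that are everywhere local norms
from `k(a^{1/p})` have index dividing `p` modulo principal ideles. -/
def SecondIneqStatement : Prop :=
  ∀ a : kˣ, (principal (finLoc k) ⊔ NmLoc (finU k) (finNloc k p a)).relIndex (resProd (finU k)) ∣ p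

variable {k p}

omit [NumberField k] in
theorem finLoc_injective (v : FinPlace k) : Function.Injective (finLoc k v) := by
  intro x y hxy
  have h1 : ((finLoc k v x : finX k v) : v.field) = ((finLoc k v y : finX k v) : v.field) := by
    rw [hxy]
  have h2 : locEmb (v.1 : ℕ) v.emb (x : k) = locEmb (v.1 : ℕ) v.emb (y : k) := h1
  exact Units.ext ((locEmb (v.1 : ℕ) v.emb).injective h2)

omit [NumberField k] in
theorem finU_of_pow {v : FinPlace k} (hp : p ≠ 0) (x : finX k v) (hx : x ^ p ∈ finU k v) :
    x ∈ finU k v := by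
  have h1 : ‖(((x ^ p : finX k v) : v.field) : PadicAlgCl (v.1 : ℕ))‖ = 1 := hx
  have h2 : ‖(((x : finX k v) : v.field) : PadicAlgCl (v.1 : ℕ))‖ ^ p = 1 := by
    rw [← norm_pow, ← h1]
    rfl
  exact (pow_eq_one_iff_of_nonneg (norm_nonneg _) hp).1 h2

/-- **Assembly**: the hypotheses `KummerHypR` of the abstract theorem from the concrete leaves. -/
theorem kummerHypR_of_leaves (hp : p.Prime) (hp2 : p ≠ 2) {ζ : k} (hζ : IsPrimitiveRoot ζ p)
    (hfin : FiniteNonunitStatement k) (hcn : ClassNumberStatement k)
    (hsu : SUnitIndexStatement k p) (hui : UnitIndexStatement k p)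
    (hli : LocalIndexStatement k p) (hfi : FirstIneqStatement k p)
    (hex : ExistsAuxStatement k p) :
    ∃ Sbase : Finset (FinPlace k),
      KummerHypR p (Nat.card (InfinitePlace k)) (finU k) (finLoc k) Sbase (finNloc k p) := by
  classical
  obtain ⟨T₁, hT₁⟩ := hcn
  obtain ⟨T₂, hT₂⟩ := hui
  obtain ⟨T₃, hT₃⟩ := hli
  have hodd : Odd p := hp.odd_of_ne_two hp2
  refine ⟨T₁ ∪ T₂ ∪ T₃, ?_⟩
  refine
    { diag_inj := ?_
      finite_nonunit := hfin
      classNumber := fun S hS => hT₁ S (fun v hv => hS (by simp [hv]))
      sUnit := fun S _ => hsu hp ⟨ζ, hζ⟩ S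
      unit_index := fun v hv => hT₂ v (fun h' => hv (by simp [h']))
      unit_of_pow := fun v _ x hx => finU_of_pow hp.ne_zero x hx
      local_index := fun S hS => hT₃ S (fun v hv => hS (by simp [hv]))
      pow_le_norm := ?_
      norm_top_of_pow := ?_
      self_mem_norm := ?_
      firstIneq := hfi
      exists_aux := hex }
  · -- injectivity of the diagonal: there is at least one finite place
    obtain ⟨τ⟩ : Nonempty (k →+* PadicAlgCl (2 : ℕ)) := inferInstance
    let v : FinPlace k := ⟨⟨2, Nat.prime_two⟩, placeOf 2 τ⟩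
    intro x y hxy
    exact finLoc_injective v (congrFun hxy v)
  · rintro g v _ ⟨x, rfl⟩
    exact H83.powLeNormStatement p hp _ _ x
  · rintro g v ⟨c, hc⟩
    have hζ' : IsPrimitiveRoot (locEmb (v.1 : ℕ) v.emb ζ) p :=
      hζ.map_of_injective (locEmb (v.1 : ℕ) v.emb).injective
    have h1 := H83.normTopOfPowStatement p hp (v.field) _ hζ' c
    have h2 : ((c : v.field) ^ p) = ((finLoc k v g : finX k v) : v.field) := by
      rw [← hc]
      rfl
    rw [finNloc, ← h2]
    exact h1
  · intro g v
    exact H83.selfMemNormStatement p hp hp2 _ (finLoc k v g)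

/-- **C7 in the embedding model**: the second inequality for Kummer extensions of degree `p`
of a number field `k ∋ μ_p`, `p` odd, from the concrete leaves. -/
theorem second_inequality_emb (hp : p.Prime) (hp2 : p ≠ 2) {ζ : k} (hζ : IsPrimitiveRoot ζ p)
    (hfin : FiniteNonunitStatement k) (hcn : ClassNumberStatement k)
    (hsu : SUnitIndexStatement k p) (hui : UnitIndexStatement k p)
    (hli : LocalIndexStatement k p) (hfi : FirstIneqStatement k p)
    (hex : ExistsAuxStatement k p) : SecondIneqStatement k p := by
  obtain ⟨Sbase, h⟩ := kummerHypR_of_leaves hp hp2 hζ hfin hcn hsu hui hli hfi hex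
  exact fun a => second_inequality_abstractR hp h a

end Fermat.Agent.S55.H8
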