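/-
Program C (S55), package C7 — the local leaves (UI) and (LI) of `KummerModel.lean` in the
embedding model, from helper67's landed local power index (`H67.LocalIndexFinal`) and
helper88's (A1) `finiteDimensional_locField`; (LI) also uses (A5) = `SumLocalDegreeStatement`
(sum of the local degrees above `p`), taken as a hypothesis.
-/
import Fermat.Agent.S55.H8.KummerModel
import Fermat.Agent.S55.H67.LocalIndexFinal
import Fermat.Agent.S55.H88.SemiLocalBasic

set_option autoImplicit false

open Subgroup NumberField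

noncomputable section

namespace Fermat.Agent.S55.H8

open Fermat.Agent.S55.H88

/-- (Local instance, as in `H88.SemiLocalSpec`.) -/
local instance factOfPrimesH8' (q : Nat.Primes) : Fact (q : ℕ).Prime := ⟨q.2⟩

variable {k : Type*} [Field k] [NumberField k] {p : ℕ}

instance finite_placeAbove (q : ℕ) [Fact q.Prime] : Finite (PlaceAbove q k) :=
  inferInstanceAs (Finite (Quotient (placeSetoid q k)))

omit [NumberField k] in
theorem setOf_fst_eq (q : Nat.Primes) : {v : FinPlace k | v.1 = q}
    = Set.range (fun w : PlaceAbove (q : ℕ) k => (Sigma.mk q w : FinPlace k)) := by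
  ext v
  constructor
  · intro hv
    obtain ⟨q', w⟩ := v
    have hq : q' = q := hv
    subst hq
    exact ⟨w, rfl⟩
  · rintro ⟨w, rfl⟩
    rfl

theorem finite_placesAbove (q : Nat.Primes) : {v : FinPlace k | v.1 = q}.Finite := by
  rw [setOf_fst_eq]
  exact Set.finite_range _

/-- the finite places above the rational prime `q`. -/
def placesAbove (k : Type*) [Field k] [NumberField k] (q : Nat.Primes) :
    Finset (FinPlace k) :=
  (finite_placesAbove (k := k) q).toFinset

theorem mem_placesAbove (q : Nat.Primes) (v : FinPlace k) :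
    v ∈ placesAbove k q ↔ v.1 = q :=
  (finite_placesAbove (k := k) q).mem_toFinset

instance finiteDimensional_field (v : FinPlace k) : FiniteDimensional ℚ_[(v.1 : ℕ)] v.field :=
  finiteDimensional_locField (v.1 : ℕ) v.emb

omit [NumberField k] in
theorem isPrimitiveRoot_locEmb {ζ : k} (hζ : IsPrimitiveRoot ζ p) (v : FinPlace k) :
    IsPrimitiveRoot (locEmb (v.1 : ℕ) v.emb ζ : v.field) p :=
  hζ.map_of_injective (locEmb (v.1 : ℕ) v.emb).injective

/-- **(UI)** `(U_v : U_v^p) = p` at the finite places not above `p`. -/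
theorem unitIndexStatement (hp : p.Prime) {ζ : k} (hζ : IsPrimitiveRoot ζ p) :
    UnitIndexStatement k p := by
  refine ⟨placesAbove k ⟨p, hp⟩, fun v hv => ?_⟩
  have hpq : p ≠ (v.1 : ℕ) := fun h => hv ((mem_placesAbove ⟨p, hp⟩ v).2 (Subtype.ext h.symm))
  exact H67.relIndex_pow_locUnits v.field hp hpq (isPrimitiveRoot_locEmb hζ v)

/-- the local index `(k_vˣ : k_vˣ^p)` at a finite place in terms of the local degree. -/
theorem index_pPow_finX (hp : p.Prime) {ζ : k} (hζ : IsPrimitiveRoot ζ p) (v : FinPlace k) :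
    (pPow p (finX k v)).index
      = p ^ (2 + (if (v.1 : ℕ) = p then Module.finrank ℚ_[(v.1 : ℕ)] v.field else 0)) := by
  have hζ' := isPrimitiveRoot_locEmb hζ v
  by_cases h : (v.1 : ℕ) = p
  · rw [if_pos h]
    subst h
    exact H67.index_pow_emb_self v.field hζ'
  · rw [if_neg h, add_zero]
    exact H67.index_pow_emb_of_ne v.field hp (Ne.symm h) hζ'

/-- `k ∋ μ_p`, `p` odd: `k` is totally complex, `[k : ℚ] = 2 · #{archimedean places}`. -/
theorem finrank_eq_two_mul_card_infinitePlace (hp : p.Prime) (hp2 : p ≠ 2) {ζ : k}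
    (hζ : IsPrimitiveRoot ζ p) :
    Module.finrank ℚ k = 2 * Nat.card (InfinitePlace k) := by
  have h2 : 2 < p := lt_of_le_of_ne hp.two_le (Ne.symm hp2)
  have h0 := NumberField.InfinitePlace.IsPrimitiveRoot.nrRealPlaces_eq_zero_of_two_lt h2 hζ
  have h1 := InfinitePlace.card_add_two_mul_card_eq_rank k
  have h3 := InfinitePlace.card_eq_nrRealPlaces_add_nrComplexPlaces k
  rw [Nat.card_eq_fintype_card, h3, ← h1, h0]
  ring

/-- the sum of the local degrees over the places above `q`, in `Finset` form. -/
theorem sum_placesAbove_finrank (q : Nat.Primes)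
    (hdeg : SumLocalDegreeStatement (q : ℕ) k) :
    ∑ v ∈ placesAbove k q, Module.finrank ℚ_[(v.1 : ℕ)] v.field
      = Module.finrank ℚ k := by
  rw [← finsum_mem_coe_finset]
  have hcoe : ((placesAbove k q : Finset (FinPlace k)) : Set (FinPlace k))
      = Set.range (fun w : PlaceAbove (q : ℕ) k => (Sigma.mk q w : FinPlace k)) := by
    rw [placesAbove, Set.Finite.coe_toFinset, setOf_fst_eq]
  have hinj : Function.Injective
      (fun w : PlaceAbove (q : ℕ) k => (Sigma.mk q w : FinPlace k)) :=
    fun w w' h => eq_of_heq (Sigma.mk.inj h).2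
  have h2 := finsum_mem_range
    (f := fun v : FinPlace k => Module.finrank ℚ_[(v.1 : ℕ)] v.field) hinj
  rw [hcoe]
  exact h2.trans hdeg

/-- **(LI)** the product of the local indices, given (A5) = the sum of the local degrees
above `p`. -/
theorem localIndexStatement (hp : p.Prime) (hp2 : p ≠ 2) {ζ : k} (hζ : IsPrimitiveRoot ζ p)
    (hdeg : @SumLocalDegreeStatement p ⟨hp⟩ k _ _) : LocalIndexStatement k p := by
  classical
  refine ⟨placesAbove k ⟨p, hp⟩, fun S hTS => ?_⟩
  rw [Finset.prod_congr rfl (fun v _ => index_pPow_finX hp hζ v), Finset.prod_pow_eq_pow_sum]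
  congr 1
  rw [Finset.sum_add_distrib, Finset.sum_const, smul_eq_mul]
  have h1 : ∑ v ∈ S, (if (v.1 : ℕ) = p then Module.finrank ℚ_[(v.1 : ℕ)] v.field else 0)
      = ∑ v ∈ placesAbove k ⟨p, hp⟩, Module.finrank ℚ_[(v.1 : ℕ)] v.field := by
    rw [← Finset.sum_filter]
    refine Finset.sum_congr ?_ (fun _ _ => rfl)
    ext v
    rw [Finset.mem_filter, mem_placesAbove]
    constructor
    · rintro ⟨-, h⟩
      exact Subtype.ext h
    · intro h
      exact ⟨hTS ((mem_placesAbove ⟨p, hp⟩ v).2 h), congrArg Subtype.val h⟩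
  rw [h1, sum_placesAbove_finrank ⟨p, hp⟩ hdeg, finrank_eq_two_mul_card_infinitePlace hp hp2 hζ]
  ring

end Fermat.Agent.S55.H8
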