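/-
Program C (S55), package C7 — closing the leaves (EX), (LI), (UI) of `KummerModel.lean` with the
landed theorems of helper65/helper81 (auxiliary places), helper41 (sum of local degrees) and
helper67 (local power index).  What remains of C7 after this file: the three dictionary leaves
`FiniteNonunitStatement`, `ClassNumberStatement`, `SUnitIndexStatement` (package C5) and the
first inequality `FirstIneqStatement` (package C6).
-/
import Fermat.Agent.S55.H8.KummerLocal
import Fermat.Agent.S55.H65.AuxPlaceFinal
import Fermat.Agent.S55.H41.SumLocalDegree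

set_option autoImplicit false

open Subgroup NumberField

noncomputable section

namespace Fermat.Agent.S55.H8

open Fermat.Agent.S55.H88

/-- (Local instance, as in `H88.SemiLocalSpec`.) -/
local instance factOfPrimesH8'' (q : Nat.Primes) : Fact (q : ℕ).Prime := ⟨q.2⟩

variable {k : Type*} [Field k] [NumberField k] {p : ℕ}

/-- **(EX)** auxiliary places, from `H65.exists_place_aux`. -/
theorem existsAuxStatement (hp : p.Prime) {ζ : k} (hζ : IsPrimitiveRoot ζ p) :
    ExistsAuxStatement k p := by
  intro a y S' hay
  obtain ⟨l, hl, hBl, w, ha, hy⟩ :=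
    H65.exists_place_aux k hp hζ a y hay (S'.sup (fun v : FinPlace k => (v.1 : ℕ)))
  refine ⟨(Sigma.mk (⟨l, hl.out⟩ : Nat.Primes) w : FinPlace k), ?_, ha, hy⟩
  intro hmem
  have h1 : l ≤ S'.sup (fun v : FinPlace k => (v.1 : ℕ)) :=
    Finset.le_sup (f := fun v : FinPlace k => (v.1 : ℕ)) hmem
  omega

/-- **(LI)** unconditional. -/
theorem localIndexStatement' (hp : p.Prime) (hp2 : p ≠ 2) {ζ : k} (hζ : IsPrimitiveRoot ζ p) :
    LocalIndexStatement k p :=
  localIndexStatement hp hp2 hζ (@H41.sumLocalDegree p ⟨hp⟩ k _ _)

/-- **C7 in the embedding model, reduced to C5's dictionary leaves and C6's first inequality.** -/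
theorem second_inequality_of_dict_of_firstIneq (hp : p.Prime) (hp2 : p ≠ 2) {ζ : k}
    (hζ : IsPrimitiveRoot ζ p)
    (hfin : FiniteNonunitStatement k) (hcn : ClassNumberStatement k)
    (hsu : SUnitIndexStatement k p) (hfi : FirstIneqStatement k p) :
    SecondIneqStatement k p :=
  second_inequality_emb hp hp2 hζ hfin hcn hsu (unitIndexStatement hp hζ)
    (localIndexStatement' hp hp2 hζ) hfi (existsAuxStatement hp hζ)

end Fermat.Agent.S55.H8
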