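/-
Program C (S55), package C7 — FINAL: the second inequality for Kummer extensions of degree `p`
of a number field `k ∋ μ_p` (`p` odd), in the embedding model, with ONE remaining hypothesis:
the first inequality `FirstIneqStatement k p` (package C6).

All other leaves are discharged: dictionary leaves (helper83, `H83.EmbGlue`), local power
indices (helper67), sum of local degrees (helper41), auxiliary places (helper81, helper65),
Kummer norm groups (helper83).
-/
import Fermat.Agent.S55.H8.KummerLeaves
import Fermat.Agent.S55.H83.EmbGlue

set_option autoImplicit false

open Subgroup NumberField

namespace Fermat.Agent.S55.H8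

open Fermat.Agent.S55.H88

variable {k : Type*} [Field k] [NumberField k] {p : ℕ}

/-- **C7 (second inequality, Kummer case) from C6 (first inequality).** -/
theorem second_inequality_of_firstIneq (hp : p.Prime) (hp2 : p ≠ 2) {ζ : k}
    (hζ : IsPrimitiveRoot ζ p) (hfi : FirstIneqStatement k p) : SecondIneqStatement k p :=
  second_inequality_of_dict_of_firstIneq hp hp2 hζ (H83.finiteNonunitStatement (K := k))
    (H83.classNumberStatement (K := k)) (H83.sUnitIndexStatement (K := k) p) hfi

end Fermat.Agent.S55.H8
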