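/-
Program C (S55), packages C6 + C7 → C8: the abstract **Hasse norm theorem for `S`-units** by
counting, in the form in which the two exponents are only known to be comparable.

Same situation as `hasse_norm_of_counts` (`KummerHasse.lean`): `φ : G →* A`, `B ≤ G` the
`S`-units, `Nn ≤ B` the norms of the `S`-units of the extension, `R₀ ≤ A` the product of the
local norm groups.  Inputs:

* (X1) second inequality, finite form (C7):   `(A : φ(B)·R₀) ∣ p`;
* (X2) Chevalley's unit count (C6):           `(B : Nn) · p = p ^ a`;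
* (X3) local norm indices (C3):               `(A : R₀) = p ^ a'` with `a ≤ a'`;
* global norms are local norms:               `φ(Nn) ≤ R₀`.

Output: `a = a'`, an `S`-unit which is a local norm at all places of `S` is the norm of an
`S`-unit, and the norm index is exactly `p`.
-/
import Mathlib

namespace Fermat.Agent.S55.H8

open Subgroup

variable {G A : Type*} [CommGroup G] [CommGroup A]

/-- **Hasse norm theorem for `S`-units, abstract counting form with comparable exponents.** -/
theorem hasse_norm_of_counts_le {p a a' : ℕ} (hp : p.Prime) (φ : G →* A) (B Nn : Subgroup G)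
    (R₀ : Subgroup A) (hNB : Nn ≤ B) (hloc : ∀ x ∈ Nn, φ x ∈ R₀)
    (hX1 : (B.map φ ⊔ R₀).index ∣ p)
    (hX2 : Nn.relIndex B * p = p ^ a)
    (hX3 : R₀.index = p ^ a') (haa : a ≤ a') :
    (∀ x ∈ B, φ x ∈ R₀ → x ∈ Nn) ∧ (B.map φ ⊔ R₀).index = p ∧ a = a' := by
  set K : Subgroup G := B ⊓ R₀.comap φ with hK
  have hNK : Nn ≤ K := le_inf hNB (fun x hx => hloc x hx)
  have hKB : K ≤ B := inf_le_left
  have h1 : K.relIndex B = R₀.relIndex (B.map φ ⊔ R₀) := by
    rw [hK, inf_comm, inf_relIndex_right, relIndex_comap, relIndex_sup_right]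
  have h2 : R₀.relIndex (B.map φ ⊔ R₀) * (B.map φ ⊔ R₀).index = p ^ a' := by
    rw [relIndex_mul_index le_sup_right, hX3]
  have h3 : Nn.relIndex K * K.relIndex B = Nn.relIndex B :=
    relIndex_mul_relIndex (H := Nn) (K := K) (L := B) hNK hKB
  have hpa : 0 < p ^ a := pow_pos hp.pos a
  have hpa' : 0 < p ^ a' := pow_pos hp.pos a'
  rw [← h1] at h2
  -- `n * m * p = p ^ a`, `m * i = p ^ a'`
  have hm : 0 < K.relIndex B := by
    rcases Nat.eq_zero_or_pos (K.relIndex B) with h0 | h0
    · rw [h0, zero_mul] at h2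
      exact absurd h2 hpa'.ne
    · exact h0
  rcases (Nat.dvd_prime hp).1 hX1 with hc | hc
  · -- index `1` is impossible
    exfalso
    rw [hc, mul_one] at h2
    rw [← h3, h2] at hX2
    -- `n * p ^ a' * p = p ^ a`, `a ≤ a'`
    have h4 : p ^ (a' + 1) ∣ p ^ a := ⟨Nn.relIndex K, by rw [← hX2, pow_succ]; ring⟩
    have h5 := (Nat.pow_dvd_pow_iff_le_right hp.one_lt).1 h4
    omega
  · rw [hc] at h2
    -- `m * p = p ^ a'`, `n * m * p = p ^ a`
    have h4 : Nn.relIndex K * p ^ a' = p ^ a := by
      rw [← hX2, ← h3, ← h2]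
      ring
    have h5 : p ^ a' ∣ p ^ a := ⟨Nn.relIndex K, by rw [← h4]; ring⟩
    have h6 := (Nat.pow_dvd_pow_iff_le_right hp.one_lt).1 h5
    have haa' : a = a' := le_antisymm haa h6
    have h7 : Nn.relIndex K = 1 := by
      rw [haa'] at h4
      have : Nn.relIndex K * p ^ a' = 1 * p ^ a' := by rw [h4, one_mul]
      exact Nat.eq_of_mul_eq_mul_right hpa' this
    refine ⟨?_, hc, haa'⟩
    intro x hxB hxR
    exact relIndex_eq_one.1 h7 ⟨hxB, hxR⟩

end Fermat.Agent.S55.H8
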