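/-
Program C (S55), package C7 — the finite-`S` form of the norm index.

For an idele system `(V, X, U, loc)`, local norm groups `Nl v ≤ X v` and a finite set `S` of
places with `J = kˣ · J_S`, `U v ≤ Nl v` outside `S` and the "`Cl_S(N) = 1`" property (N8),

  `(∏_{v ∈ S} X_v : im(k_S) · ∏_{v ∈ S} Nl_v) = (J : kˣ · NmLoc)`.

The left side is `#coker (k_S → ∏_{v ∈ S} k_vˣ / Nl_v) = #Ĥ⁰(G, C_S(N))`, the shape consumed
by C8; the right side is bounded by `p` by the second inequality.
-/
import Fermat.Agent.S55.H8.KummerDefs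

namespace Fermat.Agent.S55.H8

open Subgroup

variable {G : Type*} [CommGroup G] {V : Type*} {X : V → Type*} [∀ v, CommGroup (X v)]

/-- restriction of a family to the places of `S`. -/
def resS (X : V → Type*) [∀ v, CommGroup (X v)] (S : Finset V) :
    (∀ v, X v) →* (∀ v : S, X v) :=
  MonoidHom.pi (fun v : S => Pi.evalMonoidHom X v)

@[simp] theorem resS_apply (S : Finset V) (x : ∀ v, X v) (v : S) : resS X S x v = x v := rfl

/-- the subgroup `im(k_S) · ∏_{v ∈ S} Nl_v` of `∏_{v ∈ S} X_v`. -/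
def finiteNormGroup (U : ∀ v, Subgroup (X v)) (loc : ∀ v, G →* X v) (Nl : ∀ v, Subgroup (X v))
    (S : Finset V) : Subgroup (∀ v : S, X v) :=
  (GS U loc (S : Set V)).map ((resS X S).comp (diag loc)) ⊔
    Subgroup.pi Set.univ (fun v : S => Nl v)

theorem map_resS_JS (U : ∀ v, Subgroup (X v)) (S : Finset V) :
    (JS U (S : Set V)).map (resS X S) = ⊤ := by
  classical
  rw [eq_top_iff]
  intro c _
  refine ⟨fun v => if hv : v ∈ S then c ⟨v, hv⟩ else 1, ?_, ?_⟩
  · rw [SetLike.mem_coe, mem_JS]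
    intro v hv
    have hvS : v ∉ S := by simpa using hv
    rw [dif_neg hvS]
    exact (U v).one_mem
  · funext v
    rw [resS_apply, dif_pos v.2]

/-- **Finite-`S` form of the norm index.** -/
theorem index_finiteNormGroup (U : ∀ v, Subgroup (X v)) (loc : ∀ v, G →* X v)
    (Nl : ∀ v, Subgroup (X v)) (S : Finset V)
    (hP : principal loc ≤ resProd U)
    (hcn : resProd U ≤ principal loc ⊔ JS U (S : Set V))
    (hunr : ∀ v, v ∉ S → U v ≤ Nl v)
    (hN8 : ∀ x ∈ NmLoc U Nl, ∃ c : G, (∀ v, loc v c ∈ Nl v) ∧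
      ∀ v, v ∉ S → x v / loc v c ∈ U v) :
    (finiteNormGroup U loc Nl S).index
      = (principal loc ⊔ NmLoc U Nl).relIndex (resProd U) := by
  set R := finiteNormGroup U loc Nl S with hR
  set Q := principal loc ⊔ NmLoc U Nl with hQ
  have hJS : JS U (S : Set V) ≤ resProd U := JS_le_resProd U S.finite_toSet
  have hNm : NmLoc U Nl ≤ resProd U := inf_le_left
  -- (1)
  have h1 : (R.comap (resS X S)).relIndex (JS U (S : Set V)) = R.index := by
    rw [relIndex_comap, map_resS_JS, relIndex_top_right]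
  -- (2)
  have h2 : R.comap (resS X S) ⊓ JS U (S : Set V) = Q ⊓ JS U (S : Set V) := by
    apply le_antisymm
    · rintro x ⟨hxR, hxJ⟩
      refine ⟨?_, hxJ⟩
      obtain ⟨y, hy, n, hn, hyn⟩ := Subgroup.mem_sup.1 (Subgroup.mem_comap.1 hxR)
      obtain ⟨g, hg, rfl⟩ := hy
      have hx' : x = diag loc g * (x / diag loc g) := by rw [mul_div_cancel]
      rw [hx']
      refine mul_mem (le_sup_left (a := principal loc) ⟨g, rfl⟩)
        (le_sup_right (a := principal loc) ?_)
      refine mem_NmLoc.2 ⟨(resProd U).div_mem (hJS hxJ) (hP ⟨g, rfl⟩), fun v => ?_⟩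
      by_cases hv : v ∈ S
      · have h3 := congrFun hyn ⟨v, hv⟩
        have h4 : (x / diag loc g) v = n ⟨v, hv⟩ := by
          have h5 : loc v g * n ⟨v, hv⟩ = x v := h3
          rw [Pi.div_apply, diag_apply, ← h5]
          simp
        rw [h4]
        exact (Subgroup.mem_pi _).1 hn ⟨v, hv⟩ (Set.mem_univ _)
      · have hv' : v ∉ (S : Set V) := by simpa using hv
        exact hunr v hv ((U v).div_mem (mem_JS.1 hxJ v hv') (mem_GS.1 hg v hv'))
    · rintro x ⟨hxQ, hxJ⟩
      refine ⟨?_, hxJ⟩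
      obtain ⟨y, hy, n, hn, rfl⟩ := Subgroup.mem_sup.1 hxQ
      obtain ⟨c, rfl⟩ := hy
      obtain ⟨c', hc'N, hc'U⟩ := hN8 n hn
      have hg : c * c' ∈ GS U loc (S : Set V) := by
        refine mem_GS.2 (fun v hv => ?_)
        have hvS : v ∉ S := by simpa using hv
        have h3 : (diag loc c * n) v ∈ U v := mem_JS.1 hxJ v hv
        have h4 : loc v (c * c') = (diag loc c * n) v / (n v / loc v c') := by
          rw [Pi.mul_apply, diag_apply, map_mul, div_div_eq_mul_div, mul_right_comm,
            mul_div_cancel_right]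
        rw [h4]
        exact (U v).div_mem h3 (hc'U v hvS)
      show resS X S (diag loc c * n) ∈ R
      refine Subgroup.mem_sup.2 ⟨_, ⟨c * c', hg, rfl⟩,
        fun v => n v / loc v c', ?_, ?_⟩
      · rw [Subgroup.mem_pi]
        intro v _
        exact (Nl v).div_mem ((mem_NmLoc.1 hn).2 v) (hc'N v)
      · funext v
        show loc v (c * c') * (n v / loc v c') = loc v c * n v
        rw [map_mul, mul_assoc, mul_div_cancel]
  -- (3)
  have h3 : Q ⊔ JS U (S : Set V) = resProd U := by
    apply le_antisymm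
    · exact sup_le (sup_le hP hNm) hJS
    · exact hcn.trans (sup_le (le_sup_left.trans le_sup_left) le_sup_right)
  rw [← h1, ← inf_relIndex_right, h2, inf_relIndex_right, ← relIndex_sup_left, h3]

end Fermat.Agent.S55.H8
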