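/-
Program C (S55), packages C6 + C7 → C8 (helper8): the **`S`-unit Hasse norm principle** for a
Kummer layer `N = k(g^{1/p}) / k` of prime degree `p` (`k ∋ μ_p`, `p` odd), in the embedding
model (vocabulary of `H50/FirstIneqSpec.lean`):

for all `S` containing a fixed finite set of finite places,

* (NP)  an `S`-unit of `k` which is a local norm at every place of `S` is the norm of an `S`-unit
  of `N`;
* (IDX) `(∏_{v ∈ S} k_vˣ : im(E_S(k)) · ∏_{v ∈ S} Nl_v) = p`.

These are the inputs of the cyclic-layer theorems of package C8 (`H¹(G, C_S) = 0` and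
`#H²(G, C_S) ∣ p`).  Proof by counting (`hasse_norm_of_counts_le`): the second inequality in
finite-`S` form (`index_finiteNormGroup` + C7), Chevalley's unit count (C6:
`chevalley_mul` + `eq_pow_of_chevalley_count`), and the local norm indices (C3, `H98`).

Hypotheses: the five open leaves of C6 (`STRUCT`, `H90S`, `INDEX`, `COUNT`, `CLASS`); the leaves
`KEX` and `LOCNORM` are landed.
-/
import Mathlib
import Fermat.Agent.S55.H8.HasseCount
import Fermat.Agent.S55.H8.KummerFinite
import Fermat.Agent.S55.H8.PiIndex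
import Fermat.Agent.S55.H8.KummerFinal
import Fermat.Agent.S55.H50.FirstIneqSpec2
import Fermat.Agent.S55.H50.LocNorm
import Fermat.Agent.S55.H98.KummerIndexPlace

set_option autoImplicit false

open NumberField

noncomputable section

namespace Fermat.Agent.S55.H8

open Fermat.Agent.S55.H88 Fermat.Agent.S55.H50

universe u

attribute [local instance] Fermat.Agent.S55.H50.factOfPrimes'

/-- **`S`-unit Hasse norm principle** for Kummer layers of degree `p`, with the exact value of
the finite-`S` norm index. -/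
def HasseNormSUnitStatement : Prop :=
  ∀ (k N : Type u) [Field k] [NumberField k] [Field N] [NumberField N] [Algebra k N] (p : ℕ),
    p.Prime → p ≠ 2 → ∀ ζ : k, IsPrimitiveRoot ζ p → ∀ g : kˣ, g ∉ pPow p kˣ →
    ∀ (_ : KummerLayer k N p g),
    ∃ S₀ : Finset (FinPlace k), ∀ S : Finset (FinPlace k), S₀ ⊆ S →
      (∀ u ∈ sUnitsBase k S, (∀ v ∈ S, finLoc k v u ∈ kNl k p g v) →
          ∃ y ∈ sUnitsTop k N S, Units.map (Algebra.norm k : N →* k) y = u) ∧
      (finiteNormGroup (finU k) (finLoc k) (kNl k p g) S).index = p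

/-- The first inequality in the form used by C7, from the export of C6. -/
theorem firstIneqStatement_of_h50 (hFI : Fermat.Agent.S55.H50.FirstIneqStatement.{u})
    (k : Type u) [Field k] [NumberField k] (p : ℕ) (hp : p.Prime) (hp2 : p ≠ 2) {ζ : k}
    (hζ : IsPrimitiveRoot ζ p) : Fermat.Agent.S55.H8.FirstIneqStatement k p :=
  fun g hg => hFI k p hp hp2 ζ hζ g hg

/-- **C7 unconditional modulo the export of C6.** -/
theorem secondIneqStatement_of_h50 (hFI : Fermat.Agent.S55.H50.FirstIneqStatement.{u})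
    (k : Type u) [Field k] [NumberField k] (p : ℕ) (hp : p.Prime) (hp2 : p ≠ 2) {ζ : k}
    (hζ : IsPrimitiveRoot ζ p) : SecondIneqStatement k p :=
  second_inequality_of_firstIneq hp hp2 hζ (firstIneqStatement_of_h50 hFI k p hp hp2 hζ)

/-- **The `S`-unit Hasse norm principle from the leaves of C6.** -/
theorem hasseNormSUnitStatement_of_leaves (hST : SUnitStructStatement.{u})
    (hH90 : SUnitHilbert90Statement.{u}) (hIDX : SUnitIndexStatement.{u})
    (hCNT : PlaceCountKummerStatement.{u}) (hCL : SClassStatement.{u}) :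
    HasseNormSUnitStatement.{u} := by
  classical
  intro k N _ _ _ _ _ p hp hp2 ζ hζ g hg L
  have hFI : Fermat.Agent.S55.H50.FirstIneqStatement.{u} :=
    firstIneqStatement_of_leaves kummerLayerExistsStatement hST hH90 hIDX hCNT
      globalNormLocalStatement hCL
  have hfi : Fermat.Agent.S55.H8.FirstIneqStatement k p :=
    firstIneqStatement_of_h50 hFI k p hp hp2 hζ
  obtain ⟨Sbase, hK⟩ := kummerHypR_of_leaves hp hp2 hζ (H83.finiteNonunitStatement (K := k))
    (H83.classNumberStatement (K := k)) (H83.sUnitIndexStatement (K := k) p)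
    (unitIndexStatement hp hζ) (localIndexStatement' hp hp2 hζ) hfi (existsAuxStatement hp hζ)
  obtain ⟨S₀, hS₀⟩ := hH90 k N p hp g L
  obtain ⟨S₁, hS₁⟩ := hCL k N p hp hp2 ζ hζ g hg L
  have hgfin : {v : FinPlace k | finLoc k v g ∉ finU k v}.Finite := hK.finite_nonunit g
  refine ⟨S₀ ∪ S₁ ∪ Sbase ∪ hgfin.toFinset, fun S hS => ?_⟩
  have hS₀S : S₀ ⊆ S := fun v hv => hS (by simp [hv])
  have hS₁S : S₁ ⊆ S := fun v hv => hS (by simp [hv])
  have hSbS : Sbase ⊆ S := fun v hv => hS (by simp [hv])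
  have hgS : ∀ v, v ∉ S → finLoc k v g ∈ finU k v := by
    intro v hv
    by_contra h
    exact hv (hS (Finset.mem_union_right _ (hgfin.mem_toFinset.2 h)))
  -- units are local norms outside `S`
  have hunr : ∀ v, v ∉ S → finU k v ≤ kNl k p g v := fun v hv =>
    hK.unit_le_norm hp g (fun h => hv (hSbS h)) (hgS v hv)
  -- the class-group hypothesis in the form of `index_finiteNormGroup`
  have hN8 : ∀ x ∈ NmLoc (finU k) (kNl k p g), ∃ c : kˣ, (∀ v, finLoc k v c ∈ kNl k p g v) ∧
      ∀ v, v ∉ S → x v / finLoc k v c ∈ finU k v := by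
    intro x hx
    obtain ⟨c, hc1, hc2⟩ := hS₁ S hS₁S x hx
    refine ⟨c, fun v => ?_, hc2⟩
    by_cases hv : v ∈ S
    · exact hc1 v hv
    · have h1 : finLoc k v c = x v / (x v / finLoc k v c) := by rw [div_div_cancel]
      rw [h1]
      exact (kNl k p g v).div_mem ((mem_NmLoc.1 hx).2 v) (hunr v hv (hc2 v hv))
  -- (X1) the second inequality, finite form
  have hidx := index_finiteNormGroup (finU k) (finLoc k) (kNl k p g) S hK.principal_le_resProd
    (hK.classNumber S hSbS) hunr hN8
  have hX1 : (finiteNormGroup (finU k) (finLoc k) (kNl k p g) S).index ∣ p := by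
    rw [hidx]
    exact second_inequality_abstractR hp hK g
  -- (X2) Chevalley's count
  have : IsGalois k N := L.isGalois
  obtain ⟨hst1, hst2, hst3⟩ := hST k N S
  obtain ⟨hE, hEt, hG, hGt⟩ := hIDX k N p hp ζ hζ S
  obtain ⟨T, b, hTS, hTne, hc1, hc2⟩ := hCNT k N p hp hp2 ζ hζ g hg L S
  have : FiniteDimensional k N :=
    Module.finite_of_finrank_pos (by rw [L.finrank_eq]; exact hp.pos)
  have hcard : Nat.card (N ≃ₐ[k] N) = p := by
    rw [IsGalois.card_aut_eq_finrank, L.finrank_eq]
  have hσp : L.σ ^ p = 1 := by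
    have h := pow_card_eq_one' (x := L.σ)
    rwa [hcard] at h
  let σE : ↥(sUnitsTop k N S) →* ↥(sUnitsTop k N S) :=
    ((Units.map (L.σ : N →* N)).comp (sUnitsTop k N S).subtype).codRestrict (sUnitsTop k N S)
      (fun x => hst1 L.σ x x.2)
  let ιE : ↥(sUnitsBase k S) →* ↥(sUnitsTop k N S) :=
    ((Units.map (algebraMap k N : k →* N)).comp (sUnitsBase k S).subtype).codRestrict
      (sUnitsTop k N S) (fun c => (hst2 c).1 c.2)
  let nmE : ↥(sUnitsTop k N S) →* ↥(sUnitsBase k S) :=
    ((Units.map (Algebra.norm k : N →* k)).comp (sUnitsTop k N S).subtype).codRestrict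
      (sUnitsBase k S) (fun x => hst3 x x.2)
  have hσE : ∀ x : ↥(sUnitsTop k N S), (((σE x : ↥(sUnitsTop k N S)) : Nˣ) : N)
      = L.σ ((x : Nˣ) : N) := fun x => rfl
  have hnmE : ∀ x : ↥(sUnitsTop k N S), ((nmE x : ↥(sUnitsBase k S)) : kˣ)
      = Units.map (Algebra.norm k : N →* k) (x : Nˣ) := fun x => rfl
  have hiter : ∀ (n : ℕ) (x : ↥(sUnitsTop k N S)),
      (((σE^[n] x : ↥(sUnitsTop k N S)) : Nˣ) : N) = (L.σ ^ n) ((x : Nˣ) : N) := by
    intro n
    induction n with
    | zero => intro x; rfl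
    | succ n ih =>
      intro x
      rw [Function.iterate_succ_apply', hσE, ih, pow_succ', AlgEquiv.mul_apply]
  have hσ : ∀ x, σE^[p] x = x := by
    intro x
    apply Subtype.ext
    apply Units.ext
    rw [hiter, hσp]
    rfl
  have hι : Function.Injective ιE := by
    intro a c hac
    apply Subtype.ext
    apply Units.ext
    apply (algebraMap k N).injective
    have := congrArg (fun z : ↥(sUnitsTop k N S) => ((z : Nˣ) : N)) hac
    exact this
  have hfix : ∀ x, σE x = x ↔ x ∈ ιE.range := by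
    intro x
    constructor
    · intro hx
      have hx' : L.σ ((x : Nˣ) : N) = ((x : Nˣ) : N) := by
        rw [← hσE, hx]
      have hall : ∀ τ : N ≃ₐ[k] N, τ ((x : Nˣ) : N) = ((x : Nˣ) : N) := by
        intro τ
        have hle : Subgroup.zpowers L.σ ≤ MulAction.stabilizer (N ≃ₐ[k] N) (((x : Nˣ) : N)) := by
          rw [Subgroup.zpowers_le]
          exact hx'
        exact hle (L.gen τ)
      obtain ⟨c, hc⟩ := (IsGalois.mem_range_algebraMap_iff_fixed ((x : Nˣ) : N)).2 hall
      have hc0 : c ≠ 0 := by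
        rintro rfl
        rw [map_zero] at hc
        exact (x : Nˣ).ne_zero hc.symm
      have hmem : Units.map (algebraMap k N : k →* N) (Units.mk0 c hc0) ∈ sUnitsTop k N S := by
        have : Units.map (algebraMap k N : k →* N) (Units.mk0 c hc0) = (x : Nˣ) :=
          Units.ext hc
        rw [this]
        exact x.2
      refine ⟨⟨Units.mk0 c hc0, (hst2 _).2 hmem⟩, ?_⟩
      apply Subtype.ext
      apply Units.ext
      exact hc
    · rintro ⟨c, rfl⟩
      apply Subtype.ext
      apply Units.ext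
      show L.σ (algebraMap k N ((c : kˣ) : k)) = algebraMap k N ((c : kˣ) : k)
      exact L.σ.commutes _
  have hnm : ∀ x, ιE (nmE x) = ∏ j ∈ Finset.range p, σE^[j] x := by
    intro x
    apply Subtype.ext
    apply Units.ext
    have hprod : (((∏ j ∈ Finset.range p, σE^[j] x : ↥(sUnitsTop k N S)) : Nˣ) : N)
        = ∏ j ∈ Finset.range p, (L.σ ^ j) ((x : Nˣ) : N) := by
      rw [Subgroup.val_finsetProd, Units.coe_prod]
      exact Finset.prod_congr rfl (fun j _ => hiter j x)
    have hnorm : algebraMap k N (Algebra.norm k ((x : Nˣ) : N))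
        = ∏ j ∈ Finset.range p, (L.σ ^ j) ((x : Nˣ) : N) := by
      rw [Algebra.norm_eq_prod_automorphisms]
      exact prod_aut_eq_prod_pow L.σ L.gen p hcard _
    exact hnorm.trans hprod.symm
  have h90 : ∀ x, nmE x = 1 → ∃ y, x = σE y / y := by
    intro x hx
    have hx1 : Algebra.norm k ((x : Nˣ) : N) = 1 := by
      have h := congrArg (fun z : ↥(sUnitsBase k S) => ((z : kˣ) : k)) hx
      exact h
    obtain ⟨y, hy, hxy⟩ := hS₀ S hS₀S (x : Nˣ) x.2 hx1
    refine ⟨⟨y, hy⟩, ?_⟩
    apply Subtype.ext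
    apply Units.ext
    have hdiv : (((σE ⟨y, hy⟩ / ⟨y, hy⟩ : ↥(sUnitsTop k N S)) : Nˣ) : N)
        = L.σ (y : N) / (y : N) := by
      rw [Subgroup.coe_div, Units.val_div_eq_div_val]
      rfl
    exact hxy.trans hdiv.symm
  have hp0 : p ≠ 0 := hp.ne_zero
  obtain ⟨-, -, -, -, hchev⟩ := chevalley_mul p hp σE hσ ιE hι hfix nmE hnm
    (by rw [hEt]; exact hp0) (by rw [hE]; exact pow_ne_zero _ hp0)
  have hrel : (σE / MonoidHom.id ↥(sUnitsTop k N S)).range.relIndex nmE.ker = 1 := by
    rw [Subgroup.relIndex_eq_one]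
    intro x hx
    obtain ⟨y, hy⟩ := h90 x ((MonoidHom.mem_ker).1 hx)
    exact ⟨y, hy.symm⟩
  rw [hrel, one_pow, one_mul, hE, hEt, hG, hGt, hc2, hc1] at hchev
  obtain ⟨e, hTe, hidxN⟩ := eq_pow_of_chevalley_count hp hchev
  -- (X3) the local norm indices
  set R₀ : Subgroup (∀ v : S, finX k v) :=
    Subgroup.pi Set.univ (fun v : S => kNl k p g v) with hR₀
  set T' : Finset (FinPlace k) := S.filter (fun v => kNl k p g v ≠ ⊤) with hT'
  have hTT' : T ⊆ T' := fun v hv => Finset.mem_filter.2 ⟨hTS hv, hTne v hv⟩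
  have hX3 : R₀.index = p ^ T'.card := by
    refine index_pi_finset_eq_pow (kNl k p g) S T' p (Finset.filter_subset _ _) ?_ ?_
    · intro v hv
      have hne : kNl k p g v ≠ ⊤ := (Finset.mem_filter.1 hv).2
      refine H98.finPlace_kummerNormGroup_index hp hζ g v ?_
      intro c hc
      apply hne
      have hc0 : c ≠ 0 := by
        rintro rfl
        rw [zero_pow hp0] at hc
        exact (finLoc k v g : finX k v).ne_zero hc.symm
      exact hK.norm_top_of_pow g v ⟨Units.mk0 c hc0, Units.ext hc⟩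
    · intro v hv hvT
      by_contra hne
      exact hvT (Finset.mem_filter.2 ⟨hv, hne⟩)
  -- the count
  set φ : ↥(sUnitsBase k S) →* (∀ v : S, finX k v) :=
    ((resS (finX k) S).comp (diag (finLoc k))).comp (sUnitsBase k S).subtype with hφ
  have hmapφ : (⊤ : Subgroup ↥(sUnitsBase k S)).map φ ⊔ R₀
      = finiteNormGroup (finU k) (finLoc k) (kNl k p g) S := by
    rw [hφ, ← Subgroup.map_map, ← MonoidHom.range_eq_map, Subgroup.range_subtype]
    rfl
  have hres := hasse_norm_of_counts_le (a := T.card) (a' := T'.card) hp φ ⊤ nmE.range R₀ le_top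
    (by
      rintro _ ⟨y, rfl⟩
      rw [hR₀, Subgroup.mem_pi]
      intro v _
      exact globalNormLocalStatement k N p hp g hg L (y : Nˣ) v)
    (by rw [hmapφ]; exact hX1)
    (by rw [Subgroup.relIndex_top_right, hidxN, hTe, pow_succ])
    hX3 (Finset.card_le_card hTT')
  refine ⟨fun u hu hloc => ?_, by rw [← hmapφ]; exact hres.2.1⟩
  have hmem : φ ⟨u, hu⟩ ∈ R₀ := by
    rw [hR₀, Subgroup.mem_pi]
    intro v _
    exact hloc v v.2
  obtain ⟨y, hy⟩ := hres.1 ⟨u, hu⟩ (Subgroup.mem_top _) hmem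
  exact ⟨(y : Nˣ), y.2, congrArg Subtype.val hy⟩

end Fermat.Agent.S55.H8
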