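/-
Program C (S55), packages C6 + C7 → C8 (helper8): the **`S`-unit Hasse norm principle** for
Kummer layers of prime degree, UNCONDITIONAL (all leaves of C6 are landed).

For a number field `k ∋ μ_p` (`p` odd), `g ∈ kˣ` not a `p`-th power and a Kummer layer
`N = k(g^{1/p})`, for all finite sets `S` of finite places containing a fixed finite set:

* (NP)  an `S`-unit of `k` which is a local norm at every place of `S` is the norm of an `S`-unit
  of `N`;
* (IDX) `(∏_{v ∈ S} k_vˣ : im(E_S(k)) · ∏_{v ∈ S} Nl_v) = p`.
-/
import Mathlib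
import Fermat.Agent.S55.H8.HasseNormSUnit
import Fermat.Agent.S55.H50.FirstIneq

set_option autoImplicit false

open NumberField

noncomputable section

namespace Fermat.Agent.S55.H8

open Fermat.Agent.S55.H88 Fermat.Agent.S55.H50

universe u

/-- **The `S`-unit Hasse norm principle for Kummer layers**, unconditional. -/
theorem hasseNormSUnitStatement : HasseNormSUnitStatement.{u} :=
  hasseNormSUnitStatement_of_leaves Fermat.Agent.S55.H24.sUnitStructStatement
    Fermat.Agent.S55.H82.sUnitHilbert90Statement sUnitIndexStatement_holds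
    Fermat.Agent.S55.H67.placeCountKummerStatement sClassStatement

/-- Unpacked form of `hasseNormSUnitStatement`. -/
theorem exists_finset_hasseNorm (k N : Type u) [Field k] [NumberField k] [Field N]
    [NumberField N] [Algebra k N] {p : ℕ} (hp : p.Prime) (hp2 : p ≠ 2) {ζ : k}
    (hζ : IsPrimitiveRoot ζ p) {g : kˣ} (hg : g ∉ pPow p kˣ) (L : KummerLayer k N p g) :
    ∃ S₀ : Finset (FinPlace k), ∀ S : Finset (FinPlace k), S₀ ⊆ S →
      (∀ u ∈ sUnitsBase k S, (∀ v ∈ S, finLoc k v u ∈ kNl k p g v) →
          ∃ y ∈ sUnitsTop k N S, Units.map (Algebra.norm k : N →* k) y = u) ∧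
      (finiteNormGroup (finU k) (finLoc k) (kNl k p g) S).index = p :=
  hasseNormSUnitStatement k N p hp hp2 ζ hζ g hg L

end Fermat.Agent.S55.H8
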