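/-
Program C (S55), package C8, leaf (HNT) of `H29/C8Hasse.lean` (helper8): the **Hasse norm
theorem for Kummer layers of degree `p`**.

For a number field `k ∋ μ_p` (`p` odd) and `g ∈ kˣ` not a `p`-th power: an element `a ∈ kˣ`
which is a local norm from `k(g^{1/p})` at every finite place is a global norm.

Proof: the `S`-unit Hasse norm principle `exists_finset_hasseNorm` (C6 + C7, by counting) for
the Kummer layer `N = k(g^{1/p})` of helper73, with `S ⊇ S₀ ∪ supp(a)`; the norm from `N` is a
norm from `k[X]/(X^p - g)` (`H50.map_norm_mem_kummerNormGroup`).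
-/
import Mathlib
import Fermat.Agent.S55.H8.HasseNormFinal
import Fermat.Agent.S55.H29.C8Hasse

set_option autoImplicit false

open NumberField

noncomputable section

namespace Fermat.Agent.S55.H8

open Fermat.Agent.S55.H88 Fermat.Agent.S55.H50

universe u

/-- **The Hasse norm theorem for Kummer layers of degree `p`**, universe-polymorphic form. -/
theorem hasse_norm_kummer (k : Type u) [Field k] [NumberField k] {p : ℕ} (hp : p.Prime)
    (hp2 : p ≠ 2) {ζ : k} (hζ : IsPrimitiveRoot ζ p) {g : kˣ} (hg : g ∉ pPow p kˣ) (a : kˣ)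
    (ha : ∀ v : FinPlace k, finLoc k v a ∈ finNloc k p g v) :
    a ∈ kummerNormGroup p (g : k) := by
  classical
  obtain ⟨N, _, _, _, ⟨L⟩⟩ := kummerLayerExistsStatement k p hp ζ hζ g hg
  obtain ⟨S₀, hS₀⟩ := exists_finset_hasseNorm k N hp hp2 hζ hg L
  have hfin : {v : FinPlace k | finLoc k v a ∉ finU k v}.Finite :=
    H83.finiteNonunitStatement (K := k) a
  obtain ⟨hNP, -⟩ := hS₀ (S₀ ∪ hfin.toFinset) Finset.subset_union_left
  have haS : a ∈ sUnitsBase k (S₀ ∪ hfin.toFinset) := by
    unfold sUnitsBase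
    rw [mem_GS]
    intro v hv
    by_contra h
    exact hv (Finset.mem_coe.2 (Finset.mem_union_right _ (hfin.mem_toFinset.2 h)))
  obtain ⟨y, -, hy⟩ := hNP a haS (fun v _ => ha v)
  have hg' : ∀ b : k, b ^ p ≠ (g : k) := by
    intro b hb
    have hb0 : b ≠ 0 := by
      rintro rfl
      rw [zero_pow hp.ne_zero] at hb
      exact g.ne_zero hb.symm
    exact hg ⟨Units.mk0 b hb0, Units.ext hb⟩
  have h1 := map_norm_mem_kummerNormGroup (RingHom.id k) hp hg' L.α L.root L.finrank_eq y
  rw [hy] at h1
  have h2 : Units.map ((RingHom.id k : k →+* k) : k →* k) a = a := Units.ext rfl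
  rw [h2] at h1
  exact h1

/-- **Leaf (HNT) of C8**, verbatim. -/
theorem hasseNormStatement : Fermat.Agent.S55.H29.HasseNormStatement :=
  fun k _ _ _ hp hp2 _ hζ _ hg a ha => hasse_norm_kummer k hp hp2 hζ hg a ha

end Fermat.Agent.S55.H8
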