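/-
Program C (S55), package C8, leaf (UNIT-NORM) of `H29/C8Ex.lean` (helper8): at almost all
finite places of a number field `k ∋ μ_p` (`p` odd) the local units are local norms from
`k(g^{1/p})`.

Proof: outside the finite set `Sbase` of `kummerHypR_of_leaves` (places above `p`, …) and the
finitely many places where `g` is not a unit, `U_v = ⟨g⟩ · U_v^p` or `g` is a local `p`-th power
(`KummerHypR.unit_le_norm`).
-/
import Mathlib
import Fermat.Agent.S55.H8.KummerFinal
import Fermat.Agent.S55.H50.FirstIneq
import Fermat.Agent.S55.H29.C8Ex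

set_option autoImplicit false

open NumberField

noncomputable section

namespace Fermat.Agent.S55.H8

open Fermat.Agent.S55.H88

universe u

/-- At almost all finite places the local units are local norms from `k(g^{1/p})`. -/
theorem finite_setOf_not_finU_le_finNloc (k : Type u) [Field k] [NumberField k] {p : ℕ}
    (hp : p.Prime) (hp2 : p ≠ 2) {ζ : k} (hζ : IsPrimitiveRoot ζ p) (g : kˣ) :
    {v : FinPlace k | ¬ finU k v ≤ finNloc k p g v}.Finite := by
  classical
  obtain ⟨Sbase, hK⟩ := kummerHypR_of_leaves hp hp2 hζ (H83.finiteNonunitStatement (K := k))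
    (H83.classNumberStatement (K := k)) (H83.sUnitIndexStatement (K := k) p)
    (unitIndexStatement hp hζ) (localIndexStatement' hp hp2 hζ)
    (Fermat.Agent.S55.H50.h8FirstIneq k hp hp2 hζ) (existsAuxStatement hp hζ)
  have hgfin : {v : FinPlace k | finLoc k v g ∉ finU k v}.Finite := hK.finite_nonunit g
  refine ((Sbase.finite_toSet).union hgfin).subset fun v hv => ?_
  by_contra hnot
  apply hv
  have h1 : v ∉ Sbase := fun h => hnot (Or.inl (Finset.mem_coe.2 h))
  have h2 : finLoc k v g ∈ finU k v := by
    by_contra h
    exact hnot (Or.inr h)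
  exact hK.unit_le_norm hp g h1 h2

/-- **Leaf (UNIT-NORM) of C8**, verbatim. -/
theorem unitNormStatement : Fermat.Agent.S55.H29.UnitNormStatement :=
  fun k _ _ _ hp hp2 _ hζ g => finite_setOf_not_finU_le_finNloc k hp hp2 hζ g

end Fermat.Agent.S55.H8
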