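/-
S55 (Program C), package C8, export (B4) — helper8.  THE LOCAL INVARIANTS OF AN IDELE CLASS in the
model of `H88.layerOf` (C3's presentation `Gal(K_w / k_v)`, `locGalToGlobal`, `H66.inv`), and the
bridge to the C5 leaves (D4) / (D5), which are stated with the decomposition group
(`H88.locCohMap`).

* `semiLocalToLocExt q k τ'` : evaluation at `τ'` as a morphism
  `Res (K ⊗ ℚ_q)ˣ ⟶ K_wˣ` of representations of `Gal(K_w / k_v)`;
  `ideleToLoc k q τ'` : its composite with the projection `J_K → (K ⊗ ℚ_q)ˣ`;
* `locJAt k q τ' n : Hⁿ(Gal(K/k), J_K) →+ Hⁿ(Gal(K_w/k_v), K_wˣ)`, `locJ2At`, and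
  `jinvAt k q τ' : H²(Gal(K/k), J_K) →+ ℚ/ℤ`, the local invariant at `τ'` of an idele class;
* `locJ2At_diag`, `jinvAt_diag` : on the classes coming from `Kˣ` these are `H88.locH2At`,
  `H88.linvAt`;
* `locCohMap_ideleProj_eq` : the decomposition-group localisation factors through `locJAt`;
* `idele_detect` : a class of `H²(Gal(K/k), J_K)` with `locJ2At k q τ' x = 0` for all `q`, `τ'`
  is zero (from (D4));
* `ideleClass_H1_eq_zero_of_hasseP`, `isZero_H1_ideleClassRep` : the `p`-primary Hasse principle
  of the layer gives the vanishing of (the `p`-primary part of) `H¹(Gal(K/k), C_K)` (with (D5)).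
-/
import Fermat.Agent.S55.H88.SData
import Fermat.Agent.S55.H39.IdeleFinal
import Fermat.Agent.S55.H71.LocGal
import Fermat.Agent.S55.H80.ResIndexCor

set_option autoImplicit false
set_option linter.unusedSectionVars false
set_option linter.unusedVariables false

open CategoryTheory groupCohomology Rep

noncomputable section

namespace Fermat.Agent.S55.H8

open Fermat.Agent.S55.H88

attribute [local instance] factOfPrimes

section SemiLocal

variable (q : ℕ) [Fact q.Prime] (k : Type) {K : Type} [Field k] [Field K] [Algebra k K]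
  [Normal k K] (τ' : K →+* PadicAlgCl q)

/-- Evaluation at `τ'`, `(K ⊗ ℚ_q)ˣ → K_wˣ`, as a morphism of representations of
`Gal(K_w / k_v)` (C3's presentation of the local extension). -/
def semiLocalToLocExt :
    Rep.res (locGalToGlobal q k τ') (semiLocalRep q k K) ⟶
      Rep.ofAlgebraAutOnUnits (locBase q k τ') (locExt q k τ') :=
  Rep.ofHom ⟨(MonoidHom.toAdditive
      (Units.map (semiLocalEvalExt q k τ' : semiLocal q K →* locExt q k τ'))).toIntLinearMap,
    fun α => LinearMap.ext fun u => congrArg Additive.ofMul (Units.ext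
      (semiLocalEvalExt_smul q k τ' α
        ((Additive.toMul (α := (semiLocal q K)ˣ) u : (semiLocal q K)ˣ) : semiLocal q K)))⟩

/-- The local automorphism of `K_w / k_v` induced by an element of the decomposition group. -/
def decompToLoc :
    decompGroup q k τ' →* (locExt q k τ' ≃ₐ[locBase q k τ'] locExt q k τ') where
  toFun σ := H71.globToLoc q τ' (σ : K ≃ₐ[k] K) (decompLift q k τ' σ) (decompLift_spec q k τ' σ)
  map_one' := AlgEquiv.ext fun y => Subtype.ext (decompLift_one_apply q k τ' y.2)
  map_mul' σ ρ := AlgEquiv.ext fun y => Subtype.ext (decompLift_mul_apply q k τ' σ ρ y.2)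

theorem coe_decompToLoc_apply (σ : decompGroup q k τ') (y : locExt q k τ') :
    ((decompToLoc q k τ' σ y : locExt q k τ') : PadicAlgCl q)
      = decompLift q k τ' σ (y : PadicAlgCl q) := rfl

/-- `decompToLoc` is a section of the decomposition map. -/
theorem locGalToGlobal_decompToLoc (σ : decompGroup q k τ') :
    locGalToGlobal q k τ' (decompToLoc q k τ' σ) = (σ : K ≃ₐ[k] K) := by
  refine AlgEquiv.ext fun x => τ'.injective ?_
  have h := congrArg (fun y : locExt q k τ' => (y : PadicAlgCl q))
    (locGalToGlobal_spec q k τ' (decompToLoc q k τ' σ) x)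
  exact h.symm.trans (decompLift_apply q k τ' σ x)

/-- The identity `K_w → K_w`, from C3's presentation to the completion `locField q τ'`. -/
def locExtToField : locExt q k τ' →* locField q τ' where
  toFun y := ⟨(y : PadicAlgCl q), y.2⟩
  map_one' := rfl
  map_mul' _ _ := rfl

/-- `K_wˣ` in C3's presentation to `K_wˣ` as a representation of the decomposition group. -/
def locExtToLocUnits :
    Rep.res (decompToLoc q k τ')
        (Rep.ofAlgebraAutOnUnits (locBase q k τ') (locExt q k τ')) ⟶
      locUnitsRep q k τ' :=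
  Rep.ofHom ⟨(MonoidHom.toAdditive (Units.map (locExtToField q k τ'))).toIntLinearMap,
    fun σ => LinearMap.ext fun u => congrArg Additive.ofMul (Units.ext (Subtype.ext rfl))⟩

/-- The decomposition-group localisation of a semi-local class factors through the localisation
in C3's presentation. -/
theorem semiLocal_locCohMap_eq (n : ℕ) :
    locCohMap q k τ' n
      = groupCohomology.map (locGalToGlobal q k τ') (semiLocalToLocExt q k τ') n ≫
          groupCohomology.map (decompToLoc q k τ') (locExtToLocUnits q k τ') n := by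
  unfold locCohMap
  rw [← groupCohomology.map_comp]
  refine groupCohomology.map_congr ?_ ?_ n
  · exact MonoidHom.ext fun σ => (locGalToGlobal_decompToLoc q k τ' σ).symm
  · rfl

end SemiLocal

section Idele

variable (k : Type) {K : Type} [Field k] [Field K] [Algebra k K] [Normal k K]
  (q : Nat.Primes) (τ' : K →+* PadicAlgCl (q : ℕ))

/-- The localisation of the ideles at `τ'` (component at `q`, evaluated at `τ'`), as a morphism
of representations of `Gal(K_w / k_v)`. -/
def ideleToLoc :
    Rep.res (locGalToGlobal (q : ℕ) k τ') (ideleRep k K) ⟶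
      Rep.ofAlgebraAutOnUnits (locBase (q : ℕ) k τ') (locExt (q : ℕ) k τ') :=
  (resFunctor (locGalToGlobal (q : ℕ) k τ')).map (ideleProj k K q) ≫
    semiLocalToLocExt (q : ℕ) k τ'

/-- The localisation map `Hⁿ(Gal(K/k), J_K) → Hⁿ(Gal(K_w/k_v), K_wˣ)` at `τ'`. -/
def locJAt (n : ℕ) :
    groupCohomology (ideleRep k K) n →+
      groupCohomology (Rep.ofAlgebraAutOnUnits (locBase (q : ℕ) k τ') (locExt (q : ℕ) k τ')) n :=
  (groupCohomology.map (locGalToGlobal (q : ℕ) k τ') (ideleToLoc k q τ') n).hom.toAddMonoidHom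

/-- The localisation map in degree two. -/
def locJ2At :
    groupCohomology (ideleRep k K) 2 →+
      groupCohomology (Rep.ofAlgebraAutOnUnits (locBase (q : ℕ) k τ') (locExt (q : ℕ) k τ')) 2 :=
  locJAt k q τ' 2

/-- The local invariant at `τ'` of a class in `H²(Gal(K/k), J_K)`. -/
def jinvAt : groupCohomology (ideleRep k K) 2 →+ H66.QZ :=
  (H66.inv (q : ℕ) (locExt (q : ℕ) k τ')).comp (locJ2At k q τ')

/-- `locJAt` factors through the component at `q`. -/
theorem locJAt_eq (n : ℕ) (x : groupCohomology (ideleRep k K) n) :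
    locJAt k q τ' n x
      = (groupCohomology.map (locGalToGlobal (q : ℕ) k τ') (semiLocalToLocExt (q : ℕ) k τ') n).hom
          ((groupCohomology.map (MonoidHom.id (K ≃ₐ[k] K)) (ideleProj k K q) n).hom x) := by
  have h : groupCohomology.map (locGalToGlobal (q : ℕ) k τ') (ideleToLoc k q τ') n
      = groupCohomology.map (MonoidHom.id (K ≃ₐ[k] K)) (ideleProj k K q) n ≫
        groupCohomology.map (locGalToGlobal (q : ℕ) k τ') (semiLocalToLocExt (q : ℕ) k τ') n := by
    rw [← groupCohomology.map_comp]
    exact groupCohomology.map_congr (MonoidHom.ext fun _ => rfl) rfl n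
  exact congrArg (fun f => f.hom x) h

/-- The decomposition-group localisation of an idele class factors through `locJAt`. -/
theorem locCohMap_ideleProj_eq (n : ℕ) (x : groupCohomology (ideleRep k K) n) :
    (locCohMap (q : ℕ) k τ' n).hom
        ((groupCohomology.map (MonoidHom.id (K ≃ₐ[k] K)) (ideleProj k K q) n).hom x)
      = (groupCohomology.map (decompToLoc (q : ℕ) k τ') (locExtToLocUnits (q : ℕ) k τ') n).hom
          (locJAt k q τ' n x) := by
  rw [locJAt_eq, semiLocal_locCohMap_eq]
  rfl

end Idele

section NumberField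

variable (k K : Type) [Field k] [Field K] [Algebra k K] [NumberField K] [Normal k K]
  (q : Nat.Primes) (τ' : K →+* PadicAlgCl (q : ℕ))

/-- On the classes coming from `Kˣ`, the idele localisation is the localisation of
`H88.layerOf`. -/
theorem locJ2At_diag (α : groupCohomology (Rep.ofAlgebraAutOnUnits k K) 2) :
    locJ2At k q τ' (H29.mapH2 (ideleDiag k K) α) = locH2At (q : ℕ) k τ' α := by
  have h : groupCohomology.map (MonoidHom.id (K ≃ₐ[k] K)) (ideleDiag k K) 2 ≫
      groupCohomology.map (locGalToGlobal (q : ℕ) k τ') (ideleToLoc k q τ') 2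
      = groupCohomology.map (locGalToGlobal (q : ℕ) k τ') (globalToLocUnits (q : ℕ) k τ') 2 := by
    rw [← groupCohomology.map_comp]
    exact groupCohomology.map_congr (MonoidHom.ext fun _ => rfl) rfl 2
  exact congrArg (fun f => f.hom α) h

/-- On the classes coming from `Kˣ`, the idele invariant is the invariant of `H88.layerOf`. -/
theorem jinvAt_diag (α : groupCohomology (Rep.ofAlgebraAutOnUnits k K) 2) :
    jinvAt k q τ' (H29.mapH2 (ideleDiag k K) α) = linvAt (q : ℕ) k τ' α := by
  show H66.inv (q : ℕ) (locExt (q : ℕ) k τ') (locJ2At k q τ' (H29.mapH2 (ideleDiag k K) α)) = _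
  rw [locJ2At_diag]
  rfl

end NumberField

section Detect

variable (k K : Type) [Field k] [Field K] [Algebra k K] [NumberField k] [NumberField K]
  [FiniteDimensional k K] [Normal k K]

/-- **(D4) in the model of `H88.layerOf`**: a class of `H²(Gal(K/k), J_K)` all of whose
localisations (in C3's presentation) vanish is zero. -/
theorem idele_detect (x : groupCohomology (ideleRep k K) 2)
    (h : ∀ (q : Nat.Primes) (τ' : K →+* PadicAlgCl (q : ℕ)), locJ2At k q τ' x = 0) : x = 0 := by
  refine H39.ideleDetectStatement k K x fun q τ' => ?_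
  rw [locCohMap_ideleProj_eq]
  have h1 : locJAt k q τ' 2 x = 0 := h q τ'
  rw [h1, map_zero]

/-- A class of `H²(Gal(K/k), Kˣ)` that dies in `H²(Gal(K/k), J_K)` has all its local
invariants equal to zero. -/
theorem linv_eq_zero_of_mapH2_diag_eq_zero (α : groupCohomology (Rep.ofAlgebraAutOnUnits k K) 2)
    (hα : H29.mapH2 (ideleDiag k K) α = 0) (v : FinPlace k) : (layerOf k K).linv v α = 0 := by
  show linvAt (v.1 : ℕ) k (v.ext K) α = 0
  rw [← jinvAt_diag, hα, map_zero]

/-- The `p`-primary Hasse principle for the layer `K / k` kills the `p`-primary classes of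
`H²(Gal(K/k), Kˣ)` that die in `H²(Gal(K/k), J_K)`. -/
theorem eq_zero_of_mapH2_diag_eq_zero (p : ℕ) (hH : (layerOf k K).HasseP p)
    (α : groupCohomology (Rep.ofAlgebraAutOnUnits k K) 2) (hp : ∃ j : ℕ, p ^ j • α = 0)
    (hα : H29.mapH2 (ideleDiag k K) α = 0) : α = 0 :=
  hH α hp (linv_eq_zero_of_mapH2_diag_eq_zero k K α hα)

/-- **`H¹` of the idele class module, `p`-primary part.**  If the `p`-primary Hasse principle
holds for the layer `K / k`, every `p`-primary class of `H¹(Gal(K/k), C_K)` is zero. -/
theorem ideleClass_H1_eq_zero_of_hasseP (p : ℕ) (hH : (layerOf k K).HasseP p)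
    (z : groupCohomology (ideleClassRep k K) 1) (hz : ∃ j : ℕ, p ^ j • z = 0) : z = 0 := by
  have hX := ideleShortComplex_shortExact k K
  obtain ⟨j, hj⟩ := hz
  -- `δ z` is `p`-primary and dies in `H²(J_K)`
  have h1 : H29.mapH2 (ideleDiag k K) ((δ hX 1 2 rfl).hom z) = 0 :=
    congrArg (fun g => g.hom z) (mapShortComplex₁ hX (i := 1) (j := 2) rfl).zero
  have h2 : p ^ j • (δ hX 1 2 rfl).hom z = 0 :=
    (map_nsmul (δ hX 1 2 rfl).hom (p ^ j) z).symm.trans
      ((congrArg (fun w => (δ hX 1 2 rfl).hom w) hj).trans (map_zero _))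
  have h3 : (δ hX 1 2 rfl).hom z = 0 :=
    eq_zero_of_mapH2_diag_eq_zero k K p hH _ ⟨j, h2⟩ h1
  -- hence `z` comes from `H¹(J_K) = 0`
  obtain ⟨y, hy⟩ := (ShortComplex.moduleCat_exact_iff _).1
    (mapShortComplex₃_exact hX (i := 1) (j := 2) rfl) z h3
  have hs : Subsingleton (groupCohomology (ideleRep k K) 1) :=
    ModuleCat.subsingleton_of_isZero (H39.ideleH1Statement k K)
  have hy0 : y = 0 := @Subsingleton.elim _ hs y 0
  rw [← hy, hy0]
  exact map_zero _

/-- **`H¹(Gal(K/k), C_K) = 0` for a `p`-group layer** satisfying the `p`-primary Hasse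
principle. -/
theorem isZero_H1_ideleClassRep (p a : ℕ) (hcard : Nat.card (K ≃ₐ[k] K) = p ^ a)
    (hH : (layerOf k K).HasseP p) :
    Limits.IsZero (groupCohomology (ideleClassRep k K) 1) := by
  have hsub : Subsingleton (groupCohomology (ideleClassRep k K) 1) := by
    refine ⟨fun z w => ?_⟩
    have hz := ideleClass_H1_eq_zero_of_hasseP k K p hH z
      ⟨a, by rw [← hcard]; exact H80.card_smul_eq_zero _ 1 (Or.inl rfl) z⟩
    have hw := ideleClass_H1_eq_zero_of_hasseP k K p hH w
      ⟨a, by rw [← hcard]; exact H80.card_smul_eq_zero _ 1 (Or.inl rfl) w⟩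
    rw [hz, hw]
  exact ModuleCat.isZero_of_subsingleton _

end Detect

end Fermat.Agent.S55.H8
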