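/-
S55 (Program C), package C8, export (B4) — helper8.  FINITE SUPPORT of the local components /
local invariants of an idele class, and the sum of the local invariants as an additive map.

* `finite_setOf_ideleProj_ne_zero` : the component at `q` of a class of `H²(Gal(K/k), J_K)`
  vanishes for almost all primes `q` (from (D2), (D3));
* `finite_setOf_locJ2At_ne_zero`, `finite_setOf_jinvAt_ne_zero` : hence its localisations and its
  local invariants at the chosen places vanish for almost all finite places of `k`;
* `jinvSum k K : H²(Gal(K/k), J_K) →+ ℚ/ℤ`, the sum of the local invariants, with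
  `jinvSum_diag` : on the classes coming from `Kˣ` it is the sum of the `(layerOf k K).linv`.
-/
import Fermat.Agent.S55.H8.IdeleLoc

set_option autoImplicit false
set_option linter.unusedSectionVars false
set_option linter.unusedVariables false

open CategoryTheory groupCohomology Rep

noncomputable section

namespace Fermat.Agent.S55.H8

open Fermat.Agent.S55.H88

attribute [local instance] factOfPrimes

variable (k K : Type) [Field k] [Field K] [Algebra k K] [NumberField k] [NumberField K]
  [FiniteDimensional k K] [Normal k K]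

/-- The component at `q` of a class of `H²(Gal(K/k), J_K)` vanishes for almost all `q`. -/
theorem finite_setOf_ideleProj_ne_zero (x : groupCohomology (ideleRep k K) 2) :
    {q : Nat.Primes |
      (groupCohomology.map (MonoidHom.id (K ≃ₐ[k] K)) (ideleProj k K q) 2).hom x ≠ 0}.Finite := by
  classical
  have hfinG : Finite (K ≃ₐ[k] K) := inferInstance
  refine H2_induction_on x ?_
  intro c
  -- the multiplicative cocycle and its components
  have hcoc : IsMulCocycle₂ (M := ideleGroup K)
      (fun p : (K ≃ₐ[k] K) × (K ≃ₐ[k] K) => Additive.toMul (c.1 p)) :=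
    isMulCocycle₂_of_mem_cocycles₂ _ c.2
  have hcomp : ∀ q : Nat.Primes, IsMulCocycle₂ (M := (semiLocal (q : ℕ) K)ˣ)
      (fun p : (K ≃ₐ[k] K) × (K ≃ₐ[k] K) =>
        ideleComponent K q (Additive.toMul (c.1 p))) := by
    intro q g h j
    have h1 := congrArg (ideleComponent K q) (hcoc g h j)
    rw [map_mul, map_mul] at h1
    exact h1
  -- the finite set of bad primes
  have hB : ({q : Nat.Primes | ¬ IsUnramifiedAt (q : ℕ) k K} ∪
      ⋃ p : (K ≃ₐ[k] K) × (K ≃ₐ[k] K), {q : Nat.Primes |
        ((Additive.toMul (c.1 p) : ideleGroup K) :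
          ∀ q : Nat.Primes, (semiLocal (q : ℕ) K)ˣ) q
          ∉ semiLocalUnits (q : ℕ) K}).Finite :=
    (H28.almostAllUnramifiedStatement k K).union
      (Set.finite_iUnion fun p => (Additive.toMul (c.1 p) : ideleGroup K).2)
  refine hB.subset fun q hq => ?_
  by_contra hqB
  apply hq
  have hunr : IsUnramifiedAt (q : ℕ) k K := by
    by_contra h
    exact hqB (Or.inl h)
  have hunit : ∀ p : (K ≃ₐ[k] K) × (K ≃ₐ[k] K),
      ideleComponent K q (Additive.toMul (c.1 p)) ∈ semiLocalUnits (q : ℕ) K := by
    intro p
    by_contra h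
    exact hqB (Or.inr (Set.mem_iUnion.2 ⟨p, h⟩))
  have hz := H31.unramifiedUnitsStatement (q : ℕ) k K hunr 2 (Or.inr rfl)
  have hg : IsMulCocycle₂ (M := semiLocalUnits (q : ℕ) K)
      (fun p : (K ≃ₐ[k] K) × (K ≃ₐ[k] K) =>
        (⟨ideleComponent K q (Additive.toMul (c.1 p)), hunit p⟩ :
          semiLocalUnits (q : ℕ) K)) :=
    fun g h j => Subtype.ext (hcomp q g h j)
  obtain ⟨u, hu⟩ := H39.isMulCoboundary₂_of_isZero (G := K ≃ₐ[k] K)
    (M := semiLocalUnits (q : ℕ) K) hz _ hg
  rw [H39.map_ideleProj_H2π]
  refine (H39.H2π_eq_zero_iff_isMulCoboundary₂ (G := K ≃ₐ[k] K)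
    (M := (semiLocal (q : ℕ) K)ˣ) _).2 ⟨fun g => (u g : (semiLocal (q : ℕ) K)ˣ), fun g h => ?_⟩
  exact (congrArg Subtype.val (hu g h)).trans
    (H39.toMul_mapCocycles₂_ideleProj k K q c (g, h)).symm

/-- The localisations of a class of `H²(Gal(K/k), J_K)` vanish above almost all primes. -/
theorem finite_setOf_exists_locJ2At_ne_zero (x : groupCohomology (ideleRep k K) 2) :
    {q : Nat.Primes | ∃ τ' : K →+* PadicAlgCl (q : ℕ), locJ2At k q τ' x ≠ 0}.Finite := by
  refine (finite_setOf_ideleProj_ne_zero k K x).subset ?_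
  rintro q ⟨τ', hτ'⟩ h0
  apply hτ'
  show locJAt k q τ' 2 x = 0
  rw [locJAt_eq, h0, map_zero]

/-- The localisations at the chosen places of a class of `H²(Gal(K/k), J_K)` vanish at almost
all finite places of `k`. -/
theorem finite_setOf_locJ2At_ne_zero (x : groupCohomology (ideleRep k K) 2) :
    {v : FinPlace k | locJ2At k v.1 (v.ext K) x ≠ 0}.Finite := by
  have h := finite_setOf_exists_locJ2At_ne_zero k K x
  refine (finite_setOf_fst_mem k h.toFinset).subset ?_
  intro v hv
  show v.1 ∈ h.toFinset
  rw [Set.Finite.mem_toFinset]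
  exact ⟨v.ext K, hv⟩

/-- The local invariants at the chosen places of a class of `H²(Gal(K/k), J_K)` vanish at almost
all finite places of `k`. -/
theorem finite_setOf_jinvAt_ne_zero (x : groupCohomology (ideleRep k K) 2) :
    {v : FinPlace k | jinvAt k v.1 (v.ext K) x ≠ 0}.Finite := by
  refine (finite_setOf_locJ2At_ne_zero k K x).subset ?_
  intro v hv h0
  apply hv
  show H66.inv (v.1 : ℕ) (locExt (v.1 : ℕ) k (v.ext K)) (locJ2At k v.1 (v.ext K) x) = 0
  rw [h0, map_zero]

/-- The sum of the local invariants of a class of `H²(Gal(K/k), J_K)` (over the finite places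
of `k`, at the chosen places of `K` above them). -/
def jinvSum : groupCohomology (ideleRep k K) 2 →+ H66.QZ where
  toFun x := ∑ᶠ v : FinPlace k, jinvAt k v.1 (v.ext K) x
  map_zero' := by
    have h : ∀ v : FinPlace k,
        jinvAt k v.1 (v.ext K) (0 : groupCohomology (ideleRep k K) 2) = 0 :=
      fun v => map_zero _
    exact (finsum_congr h).trans finsum_zero
  map_add' x y := by
    have h : ∀ v : FinPlace k, jinvAt k v.1 (v.ext K) (x + y)
        = jinvAt k v.1 (v.ext K) x + jinvAt k v.1 (v.ext K) y := fun v => map_add _ x y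
    rw [finsum_congr h]
    exact finsum_add_distrib (finite_setOf_jinvAt_ne_zero k K x)
      (finite_setOf_jinvAt_ne_zero k K y)

theorem jinvSum_apply (x : groupCohomology (ideleRep k K) 2) :
    jinvSum k K x = ∑ᶠ v : FinPlace k, jinvAt k v.1 (v.ext K) x := rfl

/-- On the classes coming from `Kˣ`, `jinvSum` is the sum of the local invariants of the layer
`H88.layerOf k K`. -/
theorem jinvSum_diag (α : groupCohomology (Rep.ofAlgebraAutOnUnits k K) 2) :
    jinvSum k K (H29.mapH2 (ideleDiag k K) α) = ∑ᶠ v : FinPlace k, (layerOf k K).linv v α := by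
  rw [jinvSum_apply]
  exact finsum_congr fun v => jinvAt_diag k K v.1 (v.ext K) α

/-- Reciprocity for a class `α` of the layer says that its image in `H²(Gal(K/k), J_K)` is in the
kernel of `jinvSum`. -/
theorem jinvSum_diag_eq_zero_iff (α : groupCohomology (Rep.ofAlgebraAutOnUnits k K) 2) :
    jinvSum k K (H29.mapH2 (ideleDiag k K) α) = 0 ↔ (layerOf k K).RecAt α := by
  rw [jinvSum_diag]
  rfl

end Fermat.Agent.S55.H8
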