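/-
S55 (Program C), package C8, export (B4) — helper8.  ADAPTER between the idele localisation of
`H8/IdeleLoc.lean` and helper29's terms `H29.ideleToLoc`, `H29.jinvAt`, `H29.jinv`
(`H29/C8Idele.lean`), and the leaves of `H29/C8Cls.lean` that follow from `H8/IdeleLoc*.lean`:

* `h29_ideleToLoc_eq`, `h29_jinvAt_eq`, `h29_jinv_eq` : the two families of terms coincide;
* `jFinStatement : H29.JFinStatement` (leaf (J-FIN), verbatim, unconditional);
* `jDetect_all` : a class of `H²(Gal(K/k), J_K)` with `H29.jinvAt k q τ' y = 0` for ALL `q`, `τ'`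
  is zero (leaf (J-DETECT) up to the independence of the chosen place);
* `jDetectStatement_of_indep : H29.JDetectStatement` from the independence of `H29.jinvAt` of the
  embedding above a place of `k`;
* `jDetectStatement : H29.JDetectStatement` (leaf (J-DETECT), verbatim, unconditional, with
  helper31's `H31.jinvIndep`).
-/
import Fermat.Agent.S55.H8.IdeleLocFin
import Fermat.Agent.S55.H29.C8Cls
import Fermat.Agent.S55.H37.CycLoc
import Fermat.Agent.S55.H31.JinvIndep

set_option autoImplicit false
set_option linter.unusedSectionVars false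
set_option linter.unusedVariables false

open CategoryTheory groupCohomology Rep

noncomputable section

namespace Fermat.Agent.S55.H8

open Fermat.Agent.S55.H88

attribute [local instance] factOfPrimes

section Terms

variable (k : Type) {K : Type} [Field k] [Field K] [Algebra k K] [Normal k K]
  (q : Nat.Primes) (τ' : K →+* PadicAlgCl (q : ℕ))

theorem h29_ideleToLoc_eq : H29.ideleToLoc k q τ' = ideleToLoc k q τ' := rfl

theorem h29_jinvAt_eq : H29.jinvAt k q τ' = jinvAt k q τ' := rfl

end Terms

section Leaves

variable (k K : Type) [Field k] [Field K] [Algebra k K] [NumberField k] [NumberField K]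
  [FiniteDimensional k K] [Normal k K]

theorem h29_jinv_eq (v : FinPlace k) : H29.jinv k K v = jinvAt k v.1 (v.ext K) := rfl

/-- (J-DETECT) for all embeddings: a class of `H²(Gal(K/k), J_K)` all of whose local invariants
(at all embeddings of `K`) vanish is zero. -/
theorem jDetect_all (y : groupCohomology (ideleRep k K) 2)
    (h : ∀ (q : Nat.Primes) (τ' : K →+* PadicAlgCl (q : ℕ)), H29.jinvAt k q τ' y = 0) :
    y = 0 := by
  refine idele_detect k K y fun q τ' => ?_
  refine H37.inv_locExt_injective (q : ℕ) k τ' ?_
  rw [map_zero]
  exact h q τ'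

end Leaves

/-- **Leaf (J-FIN)**, verbatim. -/
theorem jFinStatement : H29.JFinStatement := by
  intro k K _ _ _ _ _ _
  exact finite_setOf_jinvAt_ne_zero k K

/-- **Leaf (J-DETECT)**, verbatim, from the independence of the local invariant of an idele class
of the embedding above a place of `k`. -/
theorem jDetectStatement_of_indep
    (hI : ∀ (k K : Type) [Field k] [NumberField k] [Field K] [NumberField K] [Algebra k K]
      [IsGalois k K] (q : Nat.Primes) (τ' τ'' : K →+* PadicAlgCl (q : ℕ)),
      placeOf (q : ℕ) (τ'.comp (algebraMap k K)) = placeOf (q : ℕ) (τ''.comp (algebraMap k K)) →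
      H29.jinvAt k q τ' = H29.jinvAt k q τ'') : H29.JDetectStatement := by
  intro k K _ _ _ _ _ _ y hy
  refine jDetect_all k K y fun q τ' => ?_
  -- the finite place of `k` below `τ'`
  let v : FinPlace k := ⟨q, placeOf (q : ℕ) (τ'.comp (algebraMap k K))⟩
  have hv : placeOf (q : ℕ) (τ'.comp (algebraMap k K))
      = placeOf (q : ℕ) ((v.ext K).comp (algebraMap k K)) := by
    rw [FinPlace.ext_comp]
    exact (Quotient.out_eq _).symm
  rw [hI k K q τ' (v.ext K) hv]
  exact hy v

/-- **Leaf (J-DETECT)**, verbatim, unconditional. -/
theorem jDetectStatement : H29.JDetectStatement :=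
  jDetectStatement_of_indep fun k K _ _ _ _ _ _ q τ' τ'' h =>
    H31.jinvIndep k K q τ' τ'' (Quotient.exact h)

end Fermat.Agent.S55.H8
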