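/-
Program C (S55), packages C5/C7/C8 (helper8): the DICTIONARY between helper88's finite ideles
`ideleGroup K` (restricted product over the rational primes `q` of the units of the semi-local
algebras `K ⊗ ℚ_q`, in the embedding model) and the idele system of finite places
`(FinPlace K, finX K, finU K, finLoc K)` used by the first and second inequalities (C6, C7).

* `ideleAt K v : ideleGroup K →* finX K v` : the component at the finite place `v` (evaluation of
  the semi-local component at the chosen embedding of `v`);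
* `ideleToFin K : ideleGroup K →* ∀ v, finX K v`;
* `ideleToFin_diag` : principal ideles go to principal ideles;
* `ideleToFin_injective`, `range_ideleToFin` : `ideleGroup K ≃ resProd (finU K)` for a number
  field `K`.
-/
import Mathlib
import Fermat.Agent.S55.H88.SemiLocalSpec
import Fermat.Agent.S55.H8.KummerDefs

set_option autoImplicit false

open NumberField

noncomputable section

namespace Fermat.Agent.S55.H8

open Fermat.Agent.S55.H88

attribute [local instance] Fermat.Agent.S55.H88.factOfPrimes

section SemiLocal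

variable (q : ℕ) [Fact q.Prime] {K : Type*} [Field K]

/-- The automorphisms of `PadicAlgCl q` over `ℚ_q` are isometries. -/
theorem norm_padicAlgCl_algEquiv' (g : PadicAlgCl q ≃ₐ[ℚ_[q]] PadicAlgCl q) (y : PadicAlgCl q) :
    ‖g y‖ = ‖y‖ :=
  congrArg NNReal.toReal (nnnorm_padicAlgCl_algEquiv q g y)

/-- Every embedding is conjugate to the chosen embedding of its place. -/
theorem exists_eq_comp_emb (τ : K →+* PadicAlgCl q) :
    ∃ g : PadicAlgCl q ≃ₐ[ℚ_[q]] PadicAlgCl q,
      τ = (g : PadicAlgCl q →+* PadicAlgCl q).comp (placeOf q τ).emb :=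
  Quotient.mk_out (s := placeSetoid q K) τ

/-- The place of a conjugate of the chosen embedding of `P` is `P`. -/
theorem placeOf_comp_emb (P : PlaceAbove q K) (g : PadicAlgCl q ≃ₐ[ℚ_[q]] PadicAlgCl q) :
    placeOf q ((g : PadicAlgCl q →+* PadicAlgCl q).comp P.emb) = P := by
  have h1 : placeOf q ((g : PadicAlgCl q →+* PadicAlgCl q).comp P.emb) = placeOf q P.emb :=
    (Quotient.sound (s := placeSetoid q K) ⟨g, rfl⟩ :
      (Quotient.mk (placeSetoid q K) P.emb) = Quotient.mk (placeSetoid q K) _).symm
  rw [h1]
  exact Quotient.out_eq P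

/-- A semi-local element with prescribed values at the chosen embeddings of the places above
`q` (the product decomposition `K ⊗ ℚ_q = ∏_{w ∣ q} K_w`, surjectivity). -/
theorem exists_semiLocal_of_values (y : PlaceAbove q K → PadicAlgCl q)
    (hy : ∀ P : PlaceAbove q K, y P ∈ locField q P.emb) :
    ∃ f : semiLocal q K, ∀ P : PlaceAbove q K,
      (f : (K →+* PadicAlgCl q) → PadicAlgCl q) P.emb = y P := by
  classical
  let F : (K →+* PadicAlgCl q) → PadicAlgCl q := fun τ =>
    (Classical.choose (exists_eq_comp_emb q τ)) (y (placeOf q τ))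
  have key : ∀ (P : PlaceAbove q K) (τ : K →+* PadicAlgCl q)
      (g : PadicAlgCl q ≃ₐ[ℚ_[q]] PadicAlgCl q),
      τ = (g : PadicAlgCl q →+* PadicAlgCl q).comp P.emb → F τ = g (y P) := by
    intro P τ g hτ
    have hP : P = placeOf q τ := by rw [hτ, placeOf_comp_emb]
    subst hP
    have hspec := Classical.choose_spec (exists_eq_comp_emb q τ)
    exact eqOn_locField q (placeOf q τ).emb _ g (hspec.symm.trans hτ) (hy _)
  refine ⟨⟨F, fun g τ => ?_⟩, fun P => ?_⟩
  · obtain ⟨g₁, hg₁⟩ := exists_eq_comp_emb q τ
    have h1 : (g : PadicAlgCl q →+* PadicAlgCl q).comp τ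
        = ((g * g₁ : PadicAlgCl q ≃ₐ[ℚ_[q]] PadicAlgCl q) : PadicAlgCl q →+* PadicAlgCl q).comp
          (placeOf q τ).emb := by
      conv_lhs => rw [hg₁]
      exact RingHom.ext fun x => rfl
    rw [key (placeOf q τ) _ (g * g₁) h1, key (placeOf q τ) τ g₁ hg₁]
    rfl
  · have h1 : P.emb = ((1 : PadicAlgCl q ≃ₐ[ℚ_[q]] PadicAlgCl q) :
        PadicAlgCl q →+* PadicAlgCl q).comp P.emb := RingHom.ext fun x => rfl
    have := key P P.emb 1 h1
    exact this

/-- Two semi-local elements with the same values at the chosen embeddings are equal. -/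
theorem semiLocal_ext_of_emb {f f' : semiLocal q K}
    (h : ∀ P : PlaceAbove q K, (f : (K →+* PadicAlgCl q) → PadicAlgCl q) P.emb
      = (f' : (K →+* PadicAlgCl q) → PadicAlgCl q) P.emb) : f = f' := by
  refine Subtype.ext (funext fun τ => ?_)
  obtain ⟨g, hg⟩ := exists_eq_comp_emb q τ
  rw [hg, semiLocal_apply_comp, semiLocal_apply_comp, h]

/-- A unit of the semi-local algebra with prescribed values in the completions. -/
theorem exists_semiLocal_unit_of_values (y : ∀ P : PlaceAbove q K, (locField q P.emb)ˣ) :
    ∃ f : (semiLocal q K)ˣ, ∀ P : PlaceAbove q K,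
      ((f : semiLocal q K) : (K →+* PadicAlgCl q) → PadicAlgCl q) P.emb
        = ((y P : locField q P.emb) : PadicAlgCl q) := by
  obtain ⟨f, hf⟩ := exists_semiLocal_of_values q
    (fun P => ((y P : locField q P.emb) : PadicAlgCl q)) (fun P => (y P : locField q P.emb).2)
  obtain ⟨f', hf'⟩ := exists_semiLocal_of_values q
    (fun P => (((y P)⁻¹ : (locField q P.emb)ˣ) : locField q P.emb))
    (fun P => (((y P)⁻¹ : (locField q P.emb)ˣ) : locField q P.emb).2)
  have hmul : f * f' = 1 := by
    apply semiLocal_ext_of_emb q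
    intro P
    show (f : (K →+* PadicAlgCl q) → PadicAlgCl q) P.emb *
      (f' : (K →+* PadicAlgCl q) → PadicAlgCl q) P.emb = 1
    rw [hf, hf']
    have h1 : ((y P : locField q P.emb)) * (((y P)⁻¹ : (locField q P.emb)ˣ) : locField q P.emb)
        = 1 := (y P).mul_inv
    exact congrArg (fun z : locField q P.emb => (z : PadicAlgCl q)) h1
  exact ⟨⟨f, f', hmul, (mul_comm f' f).trans hmul⟩, hf⟩

/-- A semi-local unit is a local unit as soon as its values at the chosen embeddings have norm
one. -/
theorem mem_semiLocalUnits_of_emb {u : (semiLocal q K)ˣ}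
    (h : ∀ P : PlaceAbove q K,
      ‖((u : semiLocal q K) : (K →+* PadicAlgCl q) → PadicAlgCl q) P.emb‖ = 1) :
    u ∈ semiLocalUnits q K := by
  intro τ
  obtain ⟨g, hg⟩ := exists_eq_comp_emb q τ
  rw [hg, semiLocal_apply_comp, norm_padicAlgCl_algEquiv', h]

end SemiLocal

section Idele

variable (K : Type) [Field K]

/-- The component of a finite idele at the finite place `v`. -/
def ideleAt (v : FinPlace K) : ideleGroup K →* finX K v :=
  MonoidHom.comp (N := (semiLocal (v.1 : ℕ) K)ˣ)
    (Units.map (semiLocalEvalLoc (v.1 : ℕ) v.emb).toMonoidHom) (ideleComponent K v.1)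

/-- The finite ideles as families indexed by the finite places. -/
def ideleToFin : ideleGroup K →* (∀ v : FinPlace K, finX K v) :=
  MonoidHom.pi (ideleAt K)

variable {K}

theorem coe_ideleAt (v : FinPlace K) (x : ideleGroup K) :
    ((ideleAt K v x : finX K v) : PadicAlgCl (v.1 : ℕ))
      = ((((x : ∀ q : Nat.Primes, (semiLocal (q : ℕ) K)ˣ) v.1 : (semiLocal (v.1 : ℕ) K)ˣ) :
          semiLocal (v.1 : ℕ) K) : (K →+* PadicAlgCl (v.1 : ℕ)) → PadicAlgCl (v.1 : ℕ)) v.emb :=
  rfl

@[simp] theorem ideleToFin_apply (x : ideleGroup K) (v : FinPlace K) :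
    ideleToFin K x v = ideleAt K v x := rfl

/-- Principal ideles go to principal ideles. -/
theorem ideleToFin_diag [NumberField K] (a : Kˣ) :
    ideleToFin K (ideleDiagHom K a) = diag (finLoc K) a := by
  funext v
  exact Units.ext rfl

/-- The dictionary is injective. -/
theorem ideleToFin_injective : Function.Injective (ideleToFin K) := by
  rw [injective_iff_map_eq_one]
  intro x hx
  refine Subtype.ext (funext fun q => Units.ext ?_)
  apply semiLocal_ext_of_emb (q : ℕ)
  intro P
  have h1 := congrFun hx (⟨q, P⟩ : FinPlace K)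
  have h2 := congrArg (fun z : (locField (q : ℕ) P.emb)ˣ =>
    ((z : locField (q : ℕ) P.emb) : PadicAlgCl (q : ℕ))) h1
  exact h2

/-- The image of the dictionary is contained in the restricted product. -/
theorem ideleToFin_mem_resProd [NumberField K] (x : ideleGroup K) :
    ideleToFin K x ∈ resProd (finU K) := by
  rw [mem_resProd]
  have hx : {q : Nat.Primes | (x : ∀ q : Nat.Primes, (semiLocal (q : ℕ) K)ˣ) q
      ∉ semiLocalUnits (q : ℕ) K}.Finite := x.2
  have hfib : ∀ q : Nat.Primes, {v : FinPlace K | v.1 = q}.Finite := by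
    intro q
    have : {v : FinPlace K | v.1 = q}
        ⊆ Set.range (fun w : PlaceAbove (q : ℕ) K => (Sigma.mk q w : FinPlace K)) := by
      rintro ⟨q', w⟩ hv
      have hq : q' = q := hv
      subst hq
      exact ⟨w, rfl⟩
    have hfin : Finite (PlaceAbove (q : ℕ) K) :=
      inferInstanceAs (Finite (Quotient (placeSetoid (q : ℕ) K)))
    exact (Set.finite_range _).subset this
  refine (Set.Finite.biUnion hx (fun q _ => hfib q)).subset ?_
  intro v hv
  refine Set.mem_biUnion (x := v.1) ?_ rfl
  intro hmem
  apply hv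
  exact hmem v.emb

/-- **The dictionary is onto the restricted product.** -/
theorem range_ideleToFin [NumberField K] : (ideleToFin K).range = resProd (finU K) := by
  classical
  apply le_antisymm
  · rintro _ ⟨x, rfl⟩
    exact ideleToFin_mem_resProd x
  · intro Y hY
    rw [mem_resProd] at hY
    choose f hf using fun q : Nat.Primes =>
      exists_semiLocal_unit_of_values (q : ℕ) (K := K)
        (fun P => (Y (⟨q, P⟩ : FinPlace K) : (locField (q : ℕ) P.emb)ˣ))
    have hmem : f ∈ ideleGroup K := by
      rw [mem_ideleGroup_iff]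
      refine (hY.image (fun v : FinPlace K => v.1)).subset ?_
      intro q hq
      by_contra hcon
      apply hq
      apply mem_semiLocalUnits_of_emb (q : ℕ)
      intro P
      rw [hf q P]
      by_contra hne
      exact hcon ⟨(⟨q, P⟩ : FinPlace K), hne, rfl⟩
    refine ⟨⟨f, hmem⟩, ?_⟩
    funext v
    obtain ⟨q, P⟩ := v
    exact Units.ext (Subtype.ext (hf q P))

/-- The dictionary as an isomorphism onto the restricted product. -/
theorem exists_unique_idele_of_mem_resProd [NumberField K] {Y : ∀ v : FinPlace K, finX K v}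
    (hY : Y ∈ resProd (finU K)) : ∃! x : ideleGroup K, ideleToFin K x = Y := by
  have h1 : Y ∈ (ideleToFin K).range := by rw [range_ideleToFin]; exact hY
  obtain ⟨x, hx⟩ := h1
  exact ⟨x, hx, fun x' hx' => ideleToFin_injective (hx'.trans hx.symm)⟩

end Idele

end Fermat.Agent.S55.H8
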