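/-
Program C (S55), package C7 — leaf (EX-M): existence of auxiliary primes, in Mathlib language.

`k` a number field containing a primitive `p`-th root of unity, `a y : kˣ` with
`y ∉ ⟨a⟩ · kˣ^p`.  Then for every bound `B` there is a prime `v` of `𝓞 k` above a rational
prime `l > B` at which `a` and `y` are units, `a` is a `p`-th power modulo `v` and `y` is not.

Intended proof (Frobenius density, landed as `Fermat.Agent.S41.H70.exists_frobenius_not_mem`):
`L ⊇ k(α, β)` Galois over `ℚ`, `α^p = a`, `β^p = y`; `H = Gal(L / k(α))`,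
`H' = Gal(L / k(α, β))` of index `p` in `H` (Kummer theory, this is where
`y ∉ ⟨a⟩ · kˣ^p` is used); a Frobenius element `σ ∈ H \ H'` at `P ∣ l`, `l` large, and
`v = P ∩ 𝓞 k`: `σ` fixes `k`, so the residue field of `v` is `𝔽_l`; `σ α = α` gives
`α ≡ n (mod P)` with `n ∈ ℤ`, so `a ≡ n^p (mod v)`; if `y ≡ c^p (mod v)` then `β ≡ ζ^i n'`
and `σ β ≡ β (mod P)`, contradicting `σ β = ζ^j β`, `ζ^j ≠ 1`, `l ∤ p·y`.
-/
import Fermat.Agent.S55.H8.KummerDefs

namespace Fermat.Agent.S55.H8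

open NumberField IsDedekindDomain

universe u

/-- (EX-M) auxiliary primes, Mathlib form. -/
def AuxPrimeStatement : Prop :=
  ∀ (k : Type u) [Field k] [NumberField k] (p : ℕ) (_ : p.Prime) (ζ : k) (_ : IsPrimitiveRoot ζ p)
    (a y : kˣ) (_ : y ∉ Subgroup.zpowers a ⊔ pPow p kˣ) (B : ℕ),
    ∃ (v : HeightOneSpectrum (𝓞 k)) (l : ℕ), l.Prime ∧ B < l ∧ (l : 𝓞 k) ∈ v.asIdeal ∧
      v.valuation k (a : k) = 1 ∧ v.valuation k (y : k) = 1 ∧
      (∃ c : k, v.valuation k ((a : k) - c ^ p) < 1) ∧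
      ¬ (∃ c : k, v.valuation k ((y : k) - c ^ p) < 1)

end Fermat.Agent.S55.H8
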