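/-
Program C (S55), packages C6 + C7 → C8: the abstract **Hasse norm theorem for `S`-units** by
counting.

`φ : G →* A` (`G = kˣ`, `A = ∏_{v ∈ S} k_vˣ`), `B ≤ G` the `S`-units, `Nn ≤ B` the norms of the
`S`-units of a cyclic extension `N/k` of prime degree `p`, `R₀ ≤ A` the product of the local
norm groups.  Inputs:

* (X1) second inequality, finite form (C7):   `(A : φ(B)·R₀) ∣ p`;
* (X2) Chevalley's unit count (C6):           `(B : Nn) · p = p ^ a`;
* (X3) local norm indices (C3):               `(A : R₀) = p ^ a`;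
* global norms are local norms:               `φ(Nn) ≤ R₀`.

Output: an `S`-unit which is a local norm at all places of `S` is the norm of an `S`-unit
(i.e. `Ĥ⁰(G, N_S) → Ĥ⁰(G, J_S)` is injective, i.e. `H¹(G, C_S(N)) = 0` once `H¹(G, J_S) = 0`),
and the norm index is exactly `p`.
-/
import Mathlib

namespace Fermat.Agent.S55.H8

open Subgroup

variable {G A : Type*} [CommGroup G] [CommGroup A]

/-- **Hasse norm theorem for `S`-units, abstract counting form.** -/
theorem hasse_norm_of_counts {p a : ℕ} (hp : p.Prime) (φ : G →* A) (B Nn : Subgroup G)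
    (R₀ : Subgroup A) (hNB : Nn ≤ B) (hloc : ∀ x ∈ Nn, φ x ∈ R₀)
    (hX1 : (B.map φ ⊔ R₀).index ∣ p)
    (hX2 : Nn.relIndex B * p = p ^ a)
    (hX3 : R₀.index = p ^ a) :
    (∀ x ∈ B, φ x ∈ R₀ → x ∈ Nn) ∧ (B.map φ ⊔ R₀).index = p := by
  set K : Subgroup G := B ⊓ R₀.comap φ with hK
  have hNK : Nn ≤ K := le_inf hNB (fun x hx => hloc x hx)
  have hKB : K ≤ B := inf_le_left
  have h1 : K.relIndex B = R₀.relIndex (B.map φ ⊔ R₀) := by
    rw [hK, inf_comm, inf_relIndex_right, relIndex_comap, relIndex_sup_right]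
  have h2 : R₀.relIndex (B.map φ ⊔ R₀) * (B.map φ ⊔ R₀).index = p ^ a := by
    rw [relIndex_mul_index le_sup_right, hX3]
  have h3 : Nn.relIndex K * K.relIndex B = Nn.relIndex B :=
    relIndex_mul_relIndex (H := Nn) (K := K) (L := B) hNK hKB
  have hpa : 0 < p ^ a := pow_pos hp.pos a
  rw [← h1] at h2
  rcases (Nat.dvd_prime hp).1 hX1 with hc | hc
  · -- index `1` is impossible
    exfalso
    rw [hc, mul_one] at h2
    rw [← h3, h2] at hX2
    have h4 : p ^ a * (Nn.relIndex K * p) = p ^ a * 1 := by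
      rw [mul_one]
      calc p ^ a * (Nn.relIndex K * p) = Nn.relIndex K * p ^ a * p := by ring
        _ = p ^ a := hX2
    have h5 := Nat.eq_of_mul_eq_mul_left hpa h4
    have h6 : p ∣ 1 := Dvd.intro_left _ h5
    exact hp.one_lt.ne' (Nat.dvd_one.1 h6)
  · refine ⟨?_, hc⟩
    rw [hc] at h2
    have h4 : K.relIndex B = Nn.relIndex B := by
      have : K.relIndex B * p = Nn.relIndex B * p := by rw [h2, hX2]
      exact Nat.eq_of_mul_eq_mul_right hp.pos this
    have hm : 0 < K.relIndex B := by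
      rcases Nat.eq_zero_or_pos (K.relIndex B) with h0 | h0
      · rw [h0, zero_mul] at h2
        exact absurd h2 hpa.ne
      · exact h0
    have h5 : Nn.relIndex K = 1 := by
      have : Nn.relIndex K * K.relIndex B = 1 * K.relIndex B := by rw [h3, one_mul, h4]
      exact Nat.eq_of_mul_eq_mul_right hm this
    intro x hxB hxR
    exact relIndex_eq_one.1 h5 ⟨hxB, hxR⟩

end Fermat.Agent.S55.H8
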