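/-
Program C (S55), C6 + C7 → C8 glue: the index of a product of subgroups, and the count (X3)
`(∏_{v ∈ S} X_v : ∏_{v ∈ S} Nl_v) = p ^ #{v ∈ S | Nl_v ≠ ⊤}` when every proper `Nl_v` has
index `p`.
-/
import Mathlib

namespace Fermat.Agent.S55.H8

open Subgroup

/-- the index of a product of subgroups (dependent family over a `Fintype`). -/
theorem index_pi_dep {ι : Type*} [Fintype ι] {X : ι → Type*} [∀ i, CommGroup (X i)]
    (N : ∀ i, Subgroup (X i)) :
    (Subgroup.pi Set.univ N).index = ∏ i, (N i).index := by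
  classical
  let φ : (∀ i, X i) →* (∀ i, X i ⧸ N i) :=
    MonoidHom.pi (fun i => (QuotientGroup.mk' (N i)).comp (Pi.evalMonoidHom X i))
  have hφ : ∀ (x : ∀ i, X i) (i : ι), φ x i = QuotientGroup.mk (x i) := fun x i => rfl
  have hker : φ.ker = Subgroup.pi Set.univ N := by
    ext x
    rw [MonoidHom.mem_ker, Subgroup.mem_pi]
    constructor
    · intro hx i _
      have := congrFun hx i
      rw [hφ] at this
      exact (QuotientGroup.eq_one_iff _).1 this
    · intro hx
      funext i
      rw [hφ]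
      exact (QuotientGroup.eq_one_iff _).2 (hx i (Set.mem_univ i))
  have hsurj : φ.range = ⊤ := by
    rw [eq_top_iff]
    intro c _
    refine ⟨fun i => (c i).out, ?_⟩
    funext i
    rw [hφ]
    exact QuotientGroup.out_eq' _
  rw [← hker, index_ker, hsurj, Subgroup.card_top, Nat.card_pi]
  refine Finset.prod_congr rfl (fun i _ => ?_)
  rw [index_eq_card]

/-- (X3): if every proper local norm group at a place of `S` has index `p`, then
`(∏_{v ∈ S} X_v : ∏_{v ∈ S} Nl_v) = p ^ #{v ∈ S | Nl_v ≠ ⊤}`. -/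
theorem index_pi_finset_eq_pow {V : Type*} {X : V → Type*} [∀ v, CommGroup (X v)]
    (Nl : ∀ v, Subgroup (X v)) (S T : Finset V) (p : ℕ) (hTS : T ⊆ S)
    (hT : ∀ v ∈ T, (Nl v).index = p) (hS : ∀ v ∈ S, v ∉ T → Nl v = ⊤) :
    (Subgroup.pi Set.univ (fun v : S => Nl v)).index = p ^ T.card := by
  classical
  rw [index_pi_dep, Finset.prod_coe_sort S (fun v => (Nl v).index)]
  rw [← Finset.prod_subset hTS (fun v hv hvT => by rw [hS v hv hvT, index_top])]
  rw [Finset.prod_congr rfl hT, Finset.prod_const]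

end Fermat.Agent.S55.H8
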